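import Mathlib

/-!
# T16 / piece C2 (helper20): twisted circulant matrices (`q`-circulants), Mathlib only

`qcirc p c q` is the matrix of multiplication by `Σ_{i<p} c i * t^i` on `A[t]/(t^p - q)` in the
basis `1, t, …, t^(p-1)`.  Its characteristic polynomial is `∏_m (X - Σ_i c i * s_m^i)`, `s_m` the
`p` distinct roots of `t^p = q`; in particular the product over the `p` conjugates
`Σ_i ζ^(m i) t^i c_i` has coefficients in the ring generated by the `c i` and `q = t^p`
(no `ζ`, no `t` needed).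

Exported (namespace `Fermat.Agent.S16.Conj`, `A` a commutative ring):
* `qcirc (p : ℕ) (c : ℕ → A) (q : A) : Matrix (Fin p) (Fin p) A`, `qcirc_apply`
* `qcirc_map (φ : A →+* B) : (qcirc p c q).map φ = qcirc p (fun i => φ (c i)) (φ q)`
* `charpoly_qcirc_map (φ : A →+* B) :
    (qcirc p (fun i => φ (c i)) (φ q)).charpoly = (qcirc p c q).charpoly.map φ`
* `qcirc_eq_scalar`, `charpoly_qcirc_of_scalar` : if `c i = 0` for `0 < i < p` then
    `qcirc p c q = scalar (c 0)` and the charpoly is `(X - C (c 0)) ^ p`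
* `qcirc_congr : (∀ i < p, c i = c' i) → qcirc p c q = qcirc p c' q`
* `charpoly_qcirc_map_of_map_eq_zero (φ : A →+* B) (hc : ∀ i, 0 < i → i < p → φ (c i) = 0) :
    (qcirc p c q).charpoly.map φ = (X - C (φ (c 0))) ^ p`
* `charpoly_qcirc_map_of_mem (I : Ideal A) (hc : ∀ i, 0 < i → i < p → c i ∈ I) :
    (qcirc p c q).charpoly.map (Ideal.Quotient.mk I) = (X - C (Ideal.Quotient.mk I (c 0))) ^ p`
* `vandermonde_mul_qcirc`, and for `A` a domain
  `charpoly_qcirc (s : Fin p → A) (hs : ∀ m, s m ^ p = q) (hinj : Injective s) :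
    (qcirc p c q).charpoly = ∏ m, (X - C (∑ i ∈ range p, c i * s m ^ i))`
* `charpoly_qcirc_of_isPrimitiveRoot (hζ : IsPrimitiveRoot ζ p) (ht : t ≠ 0) :
    (qcirc p c (t ^ p)).charpoly = ∏ m : Fin p, (X - C (∑ i ∈ range p, c i * (ζ ^ (m : ℕ) * t) ^ i))`
* `coeff_charpoly_qcirc_mem (R : Subring A) (hc : ∀ i, c i ∈ R) (hq : q ∈ R) n :
    (qcirc p c q).charpoly.coeff n ∈ R`
-/

set_option autoImplicit false

namespace Fermat.Agent.S16.Conj

open Polynomial Matrix Finset

variable {A : Type*} [CommRing A]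

/-- matrix of multiplication by `Σ c i * t^i` on `A[t]/(t^p - q)` in the basis `1, …, t^(p-1)` -/
def qcirc (p : ℕ) (c : ℕ → A) (q : A) : Matrix (Fin p) (Fin p) A :=
  Matrix.of fun a b => if (b : ℕ) ≤ (a : ℕ) then c ((a : ℕ) - (b : ℕ)) else
    q * c (p + (a : ℕ) - (b : ℕ))

lemma qcirc_apply (p : ℕ) (c : ℕ → A) (q : A) (a b : Fin p) :
    qcirc p c q a b = if (b : ℕ) ≤ (a : ℕ) then c ((a : ℕ) - (b : ℕ)) else
      q * c (p + (a : ℕ) - (b : ℕ)) := rfl

lemma qcirc_map {B : Type*} [CommRing B] (φ : A →+* B) (p : ℕ) (c : ℕ → A) (q : A) :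
    (qcirc p c q).map φ = qcirc p (fun i => φ (c i)) (φ q) := by
  ext a b
  simp only [Matrix.map_apply, qcirc_apply]
  split_ifs <;> simp

/-- only the values `c i`, `i < p`, matter -/
lemma qcirc_congr (p : ℕ) {c c' : ℕ → A} (q : A) (h : ∀ i, i < p → c i = c' i) :
    qcirc p c q = qcirc p c' q := by
  ext a b
  have ha := a.2
  have hb := b.2
  rw [qcirc_apply, qcirc_apply]
  split_ifs with hab
  · rw [h _ (by omega)]
  · rw [h _ (by omega)]

/-- if `c i = 0` for `0 < i < p` the twisted circulant is scalar -/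
lemma qcirc_eq_scalar (p : ℕ) (c : ℕ → A) (q : A) (hc : ∀ i, 0 < i → i < p → c i = 0) :
    qcirc p c q = Matrix.scalar (Fin p) (c 0) := by
  ext a b
  rw [qcirc_apply, Matrix.scalar_apply, Matrix.diagonal_apply]
  by_cases hab : a = b
  · subst hab
    simp
  · rw [if_neg hab]
    have hne : (a : ℕ) ≠ (b : ℕ) := fun h => hab (Fin.ext h)
    split_ifs with h
    · exact hc _ (by omega) (by omega)
    · rw [hc _ (by omega) (by omega), mul_zero]

/-- the characteristic polynomial of a twisted circulant commutes with ring homomorphisms -/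
lemma charpoly_qcirc_map {B : Type*} [CommRing B] (φ : A →+* B) (p : ℕ) (c : ℕ → A) (q : A) :
    (qcirc p (fun i => φ (c i)) (φ q)).charpoly = (qcirc p c q).charpoly.map φ := by
  rw [← qcirc_map, Matrix.charpoly_map]

/-- if `c i = 0` for `0 < i < p` the characteristic polynomial is `(X - c 0) ^ p` -/
lemma charpoly_qcirc_of_scalar (p : ℕ) (c : ℕ → A) (q : A)
    (hc : ∀ i, 0 < i → i < p → c i = 0) :
    (qcirc p c q).charpoly = (X - C (c 0)) ^ p := by
  rw [qcirc_eq_scalar p c q hc, Matrix.charpoly]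
  have : charmatrix (Matrix.scalar (Fin p) (c 0)) =
      Matrix.diagonal fun _ : Fin p => (X - C (c 0) : A[X]) := by
    ext i j
    by_cases hij : i = j
    · subst hij
      simp
    · simp [hij]
  rw [this, Matrix.det_diagonal, Finset.prod_const, Finset.card_univ, Fintype.card_fin]

/-- if a ring homomorphism kills `c i` for `0 < i < p`, the image of the characteristic
polynomial is `(X - φ (c 0)) ^ p` -/
lemma charpoly_qcirc_map_of_map_eq_zero {B : Type*} [CommRing B] (φ : A →+* B) (p : ℕ)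
    (c : ℕ → A) (q : A) (hc : ∀ i, 0 < i → i < p → φ (c i) = 0) :
    (qcirc p c q).charpoly.map φ = (X - C (φ (c 0))) ^ p := by
  rw [← charpoly_qcirc_map]
  exact charpoly_qcirc_of_scalar p _ _ hc

/-- **congruence form**: if `c i ∈ I` for `0 < i < p`, then modulo `I` the characteristic
polynomial is `(X - c 0) ^ p`. -/
lemma charpoly_qcirc_map_of_mem (I : Ideal A) (p : ℕ) (c : ℕ → A) (q : A)
    (hc : ∀ i, 0 < i → i < p → c i ∈ I) :
    (qcirc p c q).charpoly.map (Ideal.Quotient.mk I) =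
      (X - C (Ideal.Quotient.mk I (c 0))) ^ p := by
  rw [← charpoly_qcirc_map]
  exact charpoly_qcirc_of_scalar p _ _ fun i h0 hp =>
    Ideal.Quotient.eq_zero_iff_mem.mpr (hc i h0 hp)

/-- coefficients of the characteristic polynomial lie in any subring containing the data -/
lemma coeff_charpoly_qcirc_mem (R : Subring A) (p : ℕ) (c : ℕ → A) (q : A)
    (hc : ∀ i, c i ∈ R) (hq : q ∈ R) (n : ℕ) :
    (qcirc p c q).charpoly.coeff n ∈ R := by
  have h := charpoly_qcirc_map R.subtype p (fun i => (⟨c i, hc i⟩ : R)) ⟨q, hq⟩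
  simp only [Subring.coe_subtype] at h
  rw [h, Polynomial.coeff_map]
  exact Subtype.property _

/-- left eigenvector relation: for `s ^ p = q` the row vector `(s ^ a)_a` is a left eigenvector of
`qcirc p c q` with eigenvalue `Σ_i c i * s ^ i`. -/
lemma sum_pow_mul_qcirc (p : ℕ) [NeZero p] (c : ℕ → A) (s : A) (b : Fin p) :
    ∑ a : Fin p, s ^ (a : ℕ) * qcirc p c (s ^ p) a b =
      (∑ i ∈ range p, c i * s ^ i) * s ^ (b : ℕ) := by
  rw [← Fin.sum_univ_eq_sum_range (fun i => c i * s ^ i) p, Finset.sum_mul]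
  refine Fintype.sum_equiv (Equiv.subRight b) _ _ fun a => ?_
  rw [qcirc_apply, Equiv.subRight_apply]
  by_cases h : b ≤ a
  · have h1 : ((a - b : Fin p) : ℕ) = (a : ℕ) - (b : ℕ) := Fin.coe_sub_iff_le.mpr h
    have h2 : (b : ℕ) ≤ (a : ℕ) := h
    rw [if_pos h2, h1]
    have h3 : s ^ (a : ℕ) = s ^ ((a : ℕ) - (b : ℕ)) * s ^ (b : ℕ) := by
      rw [← pow_add]; congr 1; omega
    rw [h3]; ring
  · have h' : a < b := not_le.mp h
    have h1 : ((a - b : Fin p) : ℕ) = p + (a : ℕ) - (b : ℕ) := Fin.coe_sub_iff_lt.mpr h'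
    have h2 : ¬ (b : ℕ) ≤ (a : ℕ) := fun hh => h hh
    have h3 : (b : ℕ) < p := b.2
    have h4 : (a : ℕ) < (b : ℕ) := h'
    rw [if_neg h2, h1]
    have h5 : s ^ (a : ℕ) * s ^ p = s ^ (p + (a : ℕ) - (b : ℕ)) * s ^ (b : ℕ) := by
      rw [← pow_add, ← pow_add]; congr 1; omega
    linear_combination (c (p + (a : ℕ) - (b : ℕ))) * h5

/-- the Vandermonde matrix of the roots of `t ^ p = q` diagonalises `qcirc p c q` -/
theorem vandermonde_mul_qcirc (p : ℕ) [NeZero p] (c : ℕ → A) (s : Fin p → A) (q : A)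
    (hs : ∀ m, s m ^ p = q) :
    vandermonde s * qcirc p c q =
      diagonal (fun m => ∑ i ∈ range p, c i * s m ^ i) * vandermonde s := by
  ext m b
  rw [Matrix.mul_apply, Matrix.diagonal_mul]
  simp only [vandermonde_apply]
  rw [← hs m]
  exact sum_pow_mul_qcirc p c (s m) b

/-- **characteristic polynomial of a twisted circulant** -/
theorem charpoly_qcirc [IsDomain A] (p : ℕ) [NeZero p] (c : ℕ → A) (s : Fin p → A) (q : A)
    (hs : ∀ m, s m ^ p = q) (hinj : Function.Injective s) :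
    (qcirc p c q).charpoly = ∏ m : Fin p, (X - C (∑ i ∈ range p, c i * s m ^ i)) := by
  set V := vandermonde s with hV
  set Q := qcirc p c q with hQ
  set D := diagonal (fun m => ∑ i ∈ range p, c i * s m ^ i) with hD
  have hVQ : V * Q = D * V := vandermonde_mul_qcirc p c s q hs
  have hdet : V.det ≠ 0 := det_vandermonde_ne_zero_iff.mpr hinj
  -- work over `A[X]`
  have hcomm : (C.mapMatrix V) * (Matrix.scalar (Fin p) (X : A[X])) =
      Matrix.scalar (Fin p) (X : A[X]) * C.mapMatrix V :=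
    ((Matrix.scalar_commute (X : A[X]) (fun r => Commute.all _ _)) _).symm.eq
  have h1 : (C.mapMatrix V) * charmatrix Q = charmatrix D * (C.mapMatrix V) := by
    unfold charmatrix
    rw [Matrix.mul_sub, Matrix.sub_mul, ← RingHom.map_mul, ← RingHom.map_mul, hVQ, hcomm]
  have h2 := congrArg Matrix.det h1
  rw [Matrix.det_mul, Matrix.det_mul] at h2
  have h3 : (C.mapMatrix V).det = C V.det := by
    rw [← RingHom.map_det]
  have h4 : (C V.det : A[X]) ≠ 0 := by
    rwa [Ne, C_eq_zero]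
  have h5 : (charmatrix D).det = ∏ m : Fin p, (X - C (∑ i ∈ range p, c i * s m ^ i)) := by
    have : charmatrix D = diagonal fun m => (X - C (∑ i ∈ range p, c i * s m ^ i) : A[X]) := by
      ext i j
      by_cases hij : i = j
      · subst hij
        simp [hD]
      · simp [hD, hij]
    rw [this, det_diagonal]
  rw [h3, h5, mul_comm] at h2
  exact mul_right_cancel₀ h4 h2

/-- the product over the `p` conjugates `Σ_i c_i (ζ^m t)^i`, `m < p`, is the characteristic
polynomial of the twisted circulant with parameter `t ^ p`. -/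
theorem charpoly_qcirc_of_isPrimitiveRoot [IsDomain A] (p : ℕ) [NeZero p] (c : ℕ → A)
    {ζ : A} (hζ : IsPrimitiveRoot ζ p) {t : A} (ht : t ≠ 0) :
    (qcirc p c (t ^ p)).charpoly =
      ∏ m : Fin p, (X - C (∑ i ∈ range p, c i * (ζ ^ (m : ℕ) * t) ^ i)) := by
  refine charpoly_qcirc p c (fun m : Fin p => ζ ^ (m : ℕ) * t) (t ^ p) (fun m => ?_) ?_
  · rw [mul_pow, ← pow_mul, mul_comm (m : ℕ) p, pow_mul, hζ.pow_eq_one, one_pow, one_mul]
  · intro a b hab
    have h1 : ζ ^ (a : ℕ) = ζ ^ (b : ℕ) := mul_right_cancel₀ ht hab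
    exact Fin.ext (hζ.pow_inj a.2 b.2 h1)

end Fermat.Agent.S16.Conj
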