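/-
T16 / package C (conjugates) — SHARED DEFINITIONS (owner: helper23; agreed shape of board 888).
Mathlib only.

* `Idx p := Option (Fin p)`                      index set of `Γ₀(p) \ SL(2,ℤ)` (`none` = the cusp `∞`,
                                                  `some j` = the coset `Γ₀(p)·S·T^j`).
* `rep p : Idx p → SL(2,ℤ)`                      `rep none = 1`, `rep (some j) = S * T ^ (j:ℕ)`.
* `conj k p G : Idx p → ℍ → ℂ`                   `conj k p G x = G ∣[k] rep p x`.
-/
import Mathlib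

open scoped MatrixGroups ModularForm
open UpperHalfPlane

namespace Fermat.Agent.S16.Conj

/-- Index set of the cosets `Γ₀(p) \ SL(2,ℤ)`: `none` is the cusp `∞`, `some j` is `Γ₀(p)·S·T^j`. -/
abbrev Idx (p : ℕ) : Type := Option (Fin p)

/-- Coset representatives of `Γ₀(p) \ SL(2,ℤ)`. -/
def rep (p : ℕ) : Idx p → SL(2, ℤ)
  | none => 1
  | some j => ModularGroup.S * ModularGroup.T ^ (j : ℕ)

@[simp] lemma rep_none (p : ℕ) : rep p none = 1 := rfl

@[simp] lemma rep_some (p : ℕ) (j : Fin p) :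
    rep p (some j) = ModularGroup.S * ModularGroup.T ^ (j : ℕ) := rfl

/-- The conjugates of `G` (a function on `ℍ`, in weight `k`) under the coset representatives. -/
noncomputable def conj (k : ℤ) (p : ℕ) (G : ℍ → ℂ) (x : Idx p) : ℍ → ℂ := G ∣[k] rep p x

lemma conj_def (k : ℤ) (p : ℕ) (G : ℍ → ℂ) (x : Idx p) : conj k p G x = G ∣[k] rep p x := rfl

@[simp] lemma conj_none (k : ℤ) (p : ℕ) (G : ℍ → ℂ) : conj k p G none = G := by
  simp [conj]

lemma conj_some (k : ℤ) (p : ℕ) (G : ℍ → ℂ) (j : Fin p) :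
    conj k p G (some j) = G ∣[k] (ModularGroup.S * ModularGroup.T ^ (j : ℕ)) := rfl

lemma conj_some' (k : ℤ) (p : ℕ) (G : ℍ → ℂ) (j : Fin p) :
    conj k p G (some j) = (G ∣[k] ModularGroup.S) ∣[k] (ModularGroup.T ^ (j : ℕ)) := by
  rw [conj_some, SlashAction.slash_mul]

end Fermat.Agent.S16.Conj
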