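import Mathlib
import Fermat.Agent.S16.Conj.Defs
import Fermat.Agent.S16.Conj.Expand.Expansion
import Fermat.Agent.S23.Basic

/-!
# T16 / package C, `Conj/Expand.lean` (helper71): the conjugates `conj k p G x` of a form on `Γ₀(p)`

Everything is stated for the shared vocabulary of `Conj/Defs.lean`
(`Idx p = Option (Fin p)`, `rep p x`, `conj k p G x = G ∣[k] rep p x`).

* `IsG0.of_isMF`, `IsG0.of_modularForm`: entry points (`IsG0 p k G` = unbundled form on `Γ₀(p)`).
* `exists_perm_conj_slash`: the **permutation law** `conj x ∣[k] γ = conj (σ x)`.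
* `expSer p k G x`: the expansion of `conj k p G x` in `q^(1/p)`:
  `expand p (aSer G)` at `x = none`, `rescale (zeta p ^ j) (bSer p k G)` at `x = some j`.
* `IsG0.hasQExp_conj`, `IsG0.qExpansion_conj`, `IsG0.laurentExp_conj`, periodicity, boundedness.
* weight 2: `IsG0.coeff_bSer : b_n = - a_{pn} / p`, hence explicit coefficients of `expSer`
  and their integrality over any subring containing `a_n`, `1/p`, `zeta p`.
-/

set_option autoImplicit false

noncomputable section

namespace Fermat.Agent.S16.Conj.Expand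

open Matrix ModularGroup MatrixGroups CongruenceSubgroup ModularForm Complex
open UpperHalfPlane hiding I
open Fermat.Agent.S28 Fermat.Agent.S20 Fermat.Agent.S23
open scoped Real Manifold

local notation "𝕢" => Function.Periodic.qParam

/-! ### Entry points -/

theorem IsG0.of_isMF {p : ℕ} [NeZero p] {k : ℤ} {G : ℍ → ℂ} (hG : IsMF (G0 p) k G) :
    IsG0 p k G where
  mdiff := hG.mdiff
  inv := fun _ hγ => IsMF.slash_eq_SL hG hγ
  bdd := hG.isBoundedAtImInfty
  bdd_S := hG.isBoundedAtImInfty_slash S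

theorem IsG0.of_modularForm {p : ℕ} [NeZero p] {k : ℤ} (F : ModularForm (Gamma0 p) k) :
    IsG0 p k F :=
  IsG0.of_isMF (ModularForm.isMF F)

/-! ### The conjugates of `Conj/Defs.lean` -/

section conj

variable {p : ℕ} [hp : Fact p.Prime] {k : ℤ} {G : ℍ → ℂ}

omit hp in
theorem conj_some_eq (j : Fin p) : Conj.conj k p G (some j) = G ∣[k] (rep (j : ℕ)) := rfl

/-- the conjugates of `Conj/Defs.lean` are the conjugates `cj` indexed by the coset space -/
theorem conj_eq_cj (hG : ∀ γ ∈ Gamma0 p, G ∣[k] γ = G) (x : Idx p) :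
    Conj.conj k p G x = cj k G (cosetEquiv p x) := by
  cases x with
  | none => rw [cj_cosetEquiv_none hG, Conj.conj_none]
  | some j => rw [cj_cosetEquiv_some hG, conj_some_eq]

/-- the permutation of the index set induced by right multiplication with `γ` -/
def idxPerm (p : ℕ) [Fact p.Prime] (γ : SL(2, ℤ)) : Equiv.Perm (Idx p) :=
  ((cosetEquiv p).trans (MulAction.toPerm γ⁻¹ : Equiv.Perm (X p))).trans (cosetEquiv p).symm

theorem conj_slash (hG : ∀ γ ∈ Gamma0 p, G ∣[k] γ = G) (γ : SL(2, ℤ)) (x : Idx p) :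
    Conj.conj k p G x ∣[k] γ = Conj.conj k p G (idxPerm p γ x) := by
  rw [conj_eq_cj hG, conj_eq_cj hG, cj_slash hG]
  congr 1
  simp [idxPerm]

/-- **permutation law** -/
theorem exists_perm_conj_slash (hG : ∀ γ ∈ Gamma0 p, G ∣[k] γ = G) (γ : SL(2, ℤ)) :
    ∃ σ : Equiv.Perm (Idx p), ∀ x, Conj.conj k p G x ∣[k] γ = Conj.conj k p G (σ x) :=
  ⟨idxPerm p γ, conj_slash hG γ⟩

omit hp in
theorem mdiff_conj (hG : MDiff G) (x : Idx p) : MDiff (Conj.conj k p G x) := by
  rw [Conj.conj_def]
  exact hG.slash k _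

/-- the expansions of the conjugates in `q^(1/p)` -/
def expSer (p : ℕ) [NeZero p] (k : ℤ) (G : ℍ → ℂ) : Idx p → PowerSeries ℂ
  | none => PowerSeries.expand p (NeZero.ne p) (aSer G)
  | some j => PowerSeries.rescale (zeta p ^ (j : ℕ)) (bSer p k G)

omit hp in
@[simp] theorem expSer_none [NeZero p] :
    expSer p k G none = PowerSeries.expand p (NeZero.ne p) (aSer G) := rfl

omit hp in
@[simp] theorem expSer_some [NeZero p] (j : Fin p) :
    expSer p k G (some j) = PowerSeries.rescale (zeta p ^ (j : ℕ)) (bSer p k G) := rfl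

omit hp in
/-- **every conjugate is given on `ℍ` by the convergent series `expSer` in `q^(1/p)`** -/
theorem IsG0.hasQExp_conj [NeZero p] (hG : IsG0 p k G) (x : Idx p) :
    HasQExp p (Conj.conj k p G x) (expSer p k G x) := by
  cases x with
  | none =>
    rw [Conj.conj_none]
    exact hG.hasQExp_inf
  | some j =>
    rw [conj_some_eq]
    exact hG.hasQExp_rep j

omit hp in
theorem IsG0.qExpansion_conj [NeZero p] (hG : IsG0 p k G) (x : Idx p) :
    qExpansion p (Conj.conj k p G x) = expSer p k G x :=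
  (hG.hasQExp_conj x).qExpansion_eq (natCast_pos' p)

omit hp in
theorem IsG0.periodic_conj [NeZero p] (hG : IsG0 p k G) (x : Idx p) :
    Function.Periodic (Conj.conj k p G x ∘ ofComplex) p :=
  (hG.hasQExp_conj x).periodic

omit hp in
theorem IsG0.isBoundedAtImInfty_conj [NeZero p] (hG : IsG0 p k G) (x : Idx p) :
    IsBoundedAtImInfty (Conj.conj k p G x) :=
  (hG.hasQExp_conj x).isBoundedAtImInfty (natCast_pos' p)

omit hp in
theorem IsG0.isMeroCusp_conj [NeZero p] (hG : IsG0 p k G) (x : Idx p) :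
    IsMeroCusp p (Conj.conj k p G x) :=
  IsMeroCusp.of_bounded (mdiff_conj hG.mdiff x) (hG.periodic_conj x)
    (hG.isBoundedAtImInfty_conj x)

omit hp in
/-- the Laurent expansion (in the sense of `S28/MeroCusp.lean`) of a conjugate -/
theorem IsG0.laurentExp_conj [NeZero p] (hG : IsG0 p k G) (x : Idx p) :
    laurentExp p (Conj.conj k p G x) = HahnSeries.ofPowerSeries ℤ ℂ (expSer p k G x) := by
  rw [laurentExp_of_bounded (natCast_pos' p) (mdiff_conj hG.mdiff x) (hG.periodic_conj x)
    (hG.isBoundedAtImInfty_conj x), hG.qExpansion_conj]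

omit hp in
/-- the `q^(1/p)`-expansion of `G ∣[k] S` (helper20's `cuspZero k G`) is `bSer p k G` -/
theorem IsG0.qExpansion_slash_S [NeZero p] (hG : IsG0 p k G) :
    qExpansion p (G ∣[k] S) = bSer p k G :=
  hG.hasQExp_slash_S.qExpansion_eq (natCast_pos' p)

end conj

/-! ### Weight 2: the expansion at the cusp `0` from the expansion at `∞` -/

section two

variable {p : ℕ} [hp : Fact p.Prime] {G : ℍ → ℂ}

/-- `aSer (other p k G) = bSer p k G` -/
theorem aSer_other {k : ℤ} : aSer (other p k G) = bSer p k G := rfl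

/-- **trace relation**, second form: `b_m = - a_{pm} / p` -/
theorem IsG0.coeff_bSer (hG : IsG0 p 2 G) (m : ℕ) :
    PowerSeries.coeff m (bSer p 2 G) = -PowerSeries.coeff (p * m) (aSer G) / p := by
  have hp0 : (p : ℂ) ≠ 0 := natCast_ne_zero' p
  have h1 := (IsG0.other hG).coeff_aSer m
  rw [aSer_other] at h1
  -- `bSer p 2 (other p 2 G) = (-p)^(-2) • aSer G`
  have h2 : HasQExp 1
      (Fermat.Agent.S16.Conj.Expand.other p 2 (Fermat.Agent.S16.Conj.Expand.other p 2 G))
      (((-(p : ℂ)) ^ (-(2 : ℤ))) • aSer G) := by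
    have : Fermat.Agent.S16.Conj.Expand.other p 2 (Fermat.Agent.S16.Conj.Expand.other p 2 G) =
        ((-(p : ℂ)) ^ (-(2 : ℤ))) • G := by
      funext τ
      rw [other_other]
      rfl
    rw [this]
    exact hG.hasQExp.smul _
  have h3 : bSer p 2 (Fermat.Agent.S16.Conj.Expand.other p 2 G) =
      ((-(p : ℂ)) ^ (-(2 : ℤ))) • aSer G :=
    h2.qExpansion_eq one_pos
  rw [h1, h3, PowerSeries.coeff_smul, smul_eq_mul]
  rw [_root_.zpow_neg, zpow_ofNat]
  field_simp

/-- the coefficients of `G ∣[2] S` in `q^(1/p)`, in terms of `qExpansion 1 G` only -/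
theorem IsG0.coeff_qExpansion_slash_S (hG : IsG0 p 2 G) (m : ℕ) :
    PowerSeries.coeff m (qExpansion p (G ∣[(2 : ℤ)] S)) =
      -PowerSeries.coeff (p * m) (qExpansion 1 G) / p := by
  rw [hG.qExpansion_slash_S, hG.coeff_bSer]
  rfl

theorem coeff_expSer_none {k : ℤ} (n : ℕ) :
    PowerSeries.coeff n (expSer p k G none) =
      if p ∣ n then PowerSeries.coeff (n / p) (qExpansion 1 G) else 0 := by
  rw [expSer_none, PowerSeries.coeff_expand]
  rfl

theorem IsG0.coeff_expSer_some (hG : IsG0 p 2 G) (j : Fin p) (n : ℕ) :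
    PowerSeries.coeff n (expSer p 2 G (some j)) =
      -(zeta p ^ ((j : ℕ) * n) * PowerSeries.coeff (p * n) (qExpansion 1 G) / p) := by
  rw [expSer_some, PowerSeries.coeff_rescale, hG.coeff_bSer, ← pow_mul]
  change _ * (-PowerSeries.coeff (p * n) (qExpansion 1 G) / p) = _
  ring

/-- **integrality of the expansions of all conjugates (weight 2)**: over any subring containing
the coefficients of `G` at `∞`, `1/p` and `ζ_p`. -/
theorem IsG0.coeff_expSer_mem (hG : IsG0 p 2 G) (R : Subring ℂ)
    (ha : ∀ n, PowerSeries.coeff n (qExpansion 1 G) ∈ R) (hpinv : ((p : ℂ))⁻¹ ∈ R)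
    (hz : zeta p ∈ R) (x : Idx p) (n : ℕ) : PowerSeries.coeff n (expSer p 2 G x) ∈ R := by
  cases x with
  | none =>
    rw [coeff_expSer_none]
    split_ifs
    · exact ha _
    · exact R.zero_mem
  | some j =>
    rw [hG.coeff_expSer_some, div_eq_mul_inv]
    exact R.neg_mem (R.mul_mem (R.mul_mem (R.pow_mem hz _) (ha _)) hpinv)

end two

end Fermat.Agent.S16.Conj.Expand
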