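import Fermat.Agent.S16.Conj.Defs
import Fermat.Agent.S16.Conj.QCirc
import Fermat.Agent.S20.CuspMatrixDefs
import Fermat.Agent.S20.PuiseuxDet
import Fermat.Agent.S20.QFun

/-!
# T16 / piece C (helper20): the characteristic polynomial of a level `p` form over level one

`G : ℍ → ℂ` a modular form of weight `k` on `Γ₀(p)` (`hG : IsMF (G0 p) k G`), `conj k p G x`
(`x : Idx p = Option (Fin p)`) its `p + 1` conjugates (helper23's `Conj/Defs.lean`).  Then
`∏_x (Y - conj k p G x z) = (Y - G z) * charpoly (qcirc p (Puiseux components of G∣S at z) (q z))`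
pointwise, and the same identity holds for `q`-expansions: NO root of unity and NO `q^(1/p)`
appears in the answer, so the coefficients of the `q`-expansions of the elementary symmetric
functions of the conjugates lie in the ring generated by the `q`-expansion coefficients of `G`
(at `∞`) and the `q^(1/p)`-expansion coefficients of `G ∣[k] S` (the cusp `0`).

All names carry a `qc` marker so that they cannot clash with the other `Conj/*` files.

Exported (namespace `Fermat.Agent.S16.Conj`; `[NeZero p]`, `hG : IsMF (G0 p) k G`, where `IsMF`/`G0`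
are those of `Fermat.Agent.S23`, so `F.isMF` for `F : ModularForm (Gamma0 p) k`):
* `qcCuspZero k G := G ∣[k] S`, `qc_conj_some_apply : conj k p G (some j) z = qcCuspZero k G (j +ᵥ z)`
* `qc_isPuiseux_of_isMF hG : IsPuiseux 1 G`, `isPuiseux_qcCuspZero hG : IsPuiseux p (qcCuspZero k G)`
  (`IsPuiseux e g` = holomorphic, bounded at `i∞`, `e`-periodic; `Fermat.Agent.S20.Puiseux`)
* `qc_prod_X_sub_C_conj hG z : ∏ x : Idx p, (X - C (conj k p G x z)) = (X - C (G z)) *
     (qcirc p (fun i => compFun p i (qcCuspZero k G) z) (𝕢 1 z)).charpoly`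
* `qcPoly p k G : (PowerSeries ℂ)[X] :=
    (X - C (qExpansion 1 G)) * (qcirc p (fun i => comp p i (qcCuspZero k G)) PowerSeries.X).charpoly`
  where `(comp p i g).coeff l = (qExpansion p g).coeff (i + l * p)` (`coeff_comp`)
* `qcEsymm p k G j z := ((univ : Finset (Idx p)).val.map fun x => conj k p G x z).esymm j`
* `qcEsymm_eq_sum p k G j z : qcEsymm p k G j z = ∑ s ∈ univ.powersetCard j, ∏ x ∈ s, conj k p G x z`
* `isPuiseux_qcEsymm hG (hj : j ≤ p + 1) : IsPuiseux 1 (qcEsymm p k G j)`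
* MAIN `qExpansion_qcEsymm hG (hj : j ≤ p + 1) :
     qExpansion 1 (qcEsymm p k G j) = (-1) ^ j * (qcPoly p k G).coeff (p + 1 - j)`
* `qcPoly_eq_map (ι : A →+* ℂ) a b (ha : map ι a = qExpansion 1 G)
     (hb : ∀ i < p, map ι (b i) = comp p i (qcCuspZero k G)) :
     qcPoly p k G = ((X - C a) * (qcirc p b PowerSeries.X).charpoly).map (PowerSeries.map ι)`
* `qcEsymmModel p a b j : PowerSeries A :=
     (-1) ^ j * ((X - C a) * (qcirc p b PowerSeries.X).charpoly).coeff (p + 1 - j)`
* `map_qcEsymmModel hG ι a b ha hb (hj : j ≤ p + 1) :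
     PowerSeries.map ι (qcEsymmModel p a b j) = qExpansion 1 (qcEsymm p k G j)`
* `map_qcEsymmModel_of_eq_zero (φ : PowerSeries A →+* B) a b (hφ : ∀ i, 0 < i → i < p → φ (b i) = 0)
     (hj : j ≤ p + 1) :
     φ (qcEsymmModel p a b j) = (φ a ::ₘ Multiset.replicate p (φ (b 0))).esymm j`
  (so: `G ≡ c` at `∞` and `G ∣ S ≡ c'` at `0` modulo `I` ⇒ `e_j ≡ esymm_j (c, c', …, c')`)
* `coeff_qExpansion_qcEsymm_mem hG (R : Subring ℂ) (h1 : ∀ n, (qExpansion 1 G).coeff n ∈ R)
     (h2 : ∀ n, (qExpansion p (qcCuspZero k G)).coeff n ∈ R) (hj : j ≤ p + 1) n :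
     (qExpansion 1 (qcEsymm p k G j)).coeff n ∈ R`
* helpers: `qc_slash_T_zpow_apply`, `qc_map_multiset_esymm`, `qc_coeff_X_sub_C_mul_pow`
-/

set_option autoImplicit false

open UpperHalfPlane ModularForm CongruenceSubgroup Matrix.SpecialLinearGroup ModularGroup
open scoped MatrixGroups ModularForm Manifold

namespace Fermat.Agent.S16.Conj

open Fermat.Agent.S23 (G0 IsMF IsCF)
open Fermat.Agent.S20 (IsMF.slash_eq_SL denom_T_zpow)
open Fermat.Agent.S20.Puiseux
open Polynomial

local notation "𝕢" => Function.Periodic.qParam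

variable {p : ℕ} [NeZero p] {k : ℤ} {G : ℍ → ℂ}

omit [NeZero p] in
/-- slashing with `T ^ m` is translation by `m` -/
lemma qc_slash_T_zpow_apply (g : ℍ → ℂ) (k : ℤ) (m : ℤ) (z : ℍ) :
    (g ∣[k] (T ^ m : SL(2, ℤ))) z = g ((m : ℝ) +ᵥ z) := by
  rw [ModularForm.SL_slash_apply, denom_T_zpow, one_zpow, mul_one, modular_T_zpow_smul]

/-- the conjugate of `G` at the cusp `0` -/
noncomputable def qcCuspZero (k : ℤ) (G : ℍ → ℂ) : ℍ → ℂ := G ∣[k] (S : SL(2, ℤ))

lemma qc_conj_some_apply (k : ℤ) (p : ℕ) (G : ℍ → ℂ) (j : Fin p) (z : ℍ) :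
    conj k p G (some j) z = qcCuspZero k G ((((j : ℕ) : ℤ) : ℝ) +ᵥ z) := by
  rw [conj_some', ← zpow_natCast, qc_slash_T_zpow_apply]
  rfl

lemma qc_S_mul_T_zpow_mul_S_inv_mem (p : ℕ) :
    (S * T ^ (p : ℤ) * S⁻¹ : SL(2, ℤ)) ∈ Gamma0 p := by
  rw [Gamma0_mem]
  have hT : ((T ^ (p : ℤ) : SL(2, ℤ)) : Matrix (Fin 2) (Fin 2) ℤ) = !![1, (p : ℤ); 0, 1] :=
    ModularGroup.coe_T_zpow p
  have h : (S * T ^ (p : ℤ) * S⁻¹ : SL(2, ℤ)) 1 0 = -(p : ℤ) := by
    rw [Matrix.SpecialLinearGroup.coe_mul, Matrix.SpecialLinearGroup.coe_mul, hT,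
      Matrix.SpecialLinearGroup.coe_inv, Matrix.adjugate_fin_two, ModularGroup.coe_S]
    simp [Matrix.mul_apply, Fin.sum_univ_two]
  rw [h]
  simp

theorem qc_isPuiseux_of_isMF (hG : IsMF (G0 p) k G) : IsPuiseux 1 G := by
  refine ⟨hG.mdiff, hG.isBoundedAtImInfty, fun z => ?_⟩
  have hT : (T : SL(2, ℤ)) ∈ Gamma0 p := by
    rw [Gamma0_mem]
    simp [ModularGroup.coe_T]
  have h := congrFun (IsMF.slash_eq_SL hG hT) z
  have h2 := qc_slash_T_zpow_apply G k 1 z
  rw [zpow_one, h] at h2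
  rw [h2]
  simp

theorem isPuiseux_qcCuspZero (hG : IsMF (G0 p) k G) : IsPuiseux p (qcCuspZero k G) := by
  refine ⟨?_, hG.isBoundedAtImInfty_slash _, fun z => ?_⟩
  · unfold qcCuspZero
    exact hG.mdiff.slash k _
  · have h := qc_slash_T_zpow_apply (qcCuspZero k G) k (p : ℤ) z
    have h2 : qcCuspZero k G ∣[k] (T ^ (p : ℤ) : SL(2, ℤ)) = qcCuspZero k G := by
      unfold qcCuspZero
      rw [← SlashAction.slash_mul]
      have h3 : (S * T ^ (p : ℤ) : SL(2, ℤ)) = (S * T ^ (p : ℤ) * S⁻¹) * S := by group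
      rw [h3, SlashAction.slash_mul, IsMF.slash_eq_SL hG (qc_S_mul_T_zpow_mul_S_inv_mem p)]
    rw [h2] at h
    rw [h]
    simp

/-- **pointwise factorisation of the characteristic polynomial through the two cusps** -/
theorem qc_prod_X_sub_C_conj (hG : IsMF (G0 p) k G) (z : ℍ) :
    ∏ x : Idx p, (X - C (conj k p G x z)) = (X - C (G z)) *
      (qcirc p (fun i => compFun p i (qcCuspZero k G) z) (𝕢 (1 : ℝ) z)).charpoly := by
  have hp : 0 < p := Nat.pos_of_ne_zero (NeZero.ne p)
  have hg := isPuiseux_qcCuspZero hG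
  rw [Fintype.prod_option, conj_none]
  congr 1
  have ht0 : 𝕢 (p : ℝ) (z : ℂ) ≠ 0 := Function.Periodic.qParam_ne_zero _
  rw [← qParam_pow_eq p hp, charpoly_qcirc_of_isPrimitiveRoot p _ (isPrimitiveRoot_zetaE p hp) ht0]
  refine Finset.prod_congr rfl fun j _ => ?_
  congr 2
  rw [qc_conj_some_apply, translate_eq hp hg]
  refine Finset.sum_congr rfl fun i _ => ?_
  rw [mul_pow, ← pow_mul, ← Nat.cast_mul, zpow_natCast]
  ring

/-- the characteristic polynomial over the ring of holomorphic bounded `1`-periodic functions -/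
noncomputable def qcPolyFun (hG : IsMF (G0 p) k G) : puiseuxSubring[X] :=
  (X - C (⟨G, qc_isPuiseux_of_isMF hG⟩ : puiseuxSubring)) *
    (qcirc p (fun i => (⟨compFun p i (qcCuspZero k G),
      isPuiseux_compFun (Nat.pos_of_ne_zero (NeZero.ne p)) (isPuiseux_qcCuspZero hG) i⟩ :
        puiseuxSubring)) (⟨qFun, isPuiseux_qFun⟩ : puiseuxSubring)).charpoly

/-- the characteristic polynomial of `G` over level one, as a polynomial over `ℂ⟦q⟧` -/
noncomputable def qcPoly (p : ℕ) (k : ℤ) (G : ℍ → ℂ) : (PowerSeries ℂ)[X] :=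
  (X - C (qExpansion (1 : ℝ) G)) *
    (qcirc p (fun i => comp p i (qcCuspZero k G)) (PowerSeries.X : PowerSeries ℂ)).charpoly

theorem qcPolyFun_map_evalHom (hG : IsMF (G0 p) k G) (z : ℍ) :
    (qcPolyFun hG).map (evalHom z) = ∏ x : Idx p, (X - C (conj k p G x z)) := by
  rw [qc_prod_X_sub_C_conj hG z, qcPolyFun, Polynomial.map_mul, Polynomial.map_sub, map_X, map_C,
    ← charpoly_qcirc_map]
  rfl

theorem qcPolyFun_map_qExpHom (hG : IsMF (G0 p) k G) :
    (qcPolyFun hG).map qExpHom = qcPoly p k G := by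
  have hp : 0 < p := Nat.pos_of_ne_zero (NeZero.ne p)
  rw [qcPolyFun, qcPoly, Polynomial.map_mul, Polynomial.map_sub, map_X, map_C,
    ← charpoly_qcirc_map]
  simp only [qExpHom_apply, qExpansion_compFun hp (isPuiseux_qcCuspZero hG), qExpansion_qFun]

/-- the elementary symmetric functions of the conjugates -/
noncomputable def qcEsymm (p : ℕ) (k : ℤ) (G : ℍ → ℂ) (j : ℕ) : ℍ → ℂ :=
  fun z => ((Finset.univ : Finset (Idx p)).val.map fun x => conj k p G x z).esymm j

omit [NeZero p] in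
/-- the same as a sum over `j`-subsets of the index set -/
theorem qcEsymm_eq_sum (p : ℕ) (k : ℤ) (G : ℍ → ℂ) (j : ℕ) (z : ℍ) :
    qcEsymm p k G j z =
      ∑ s ∈ (Finset.univ : Finset (Idx p)).powersetCard j, ∏ x ∈ s, conj k p G x z := by
  unfold qcEsymm
  rw [Finset.esymm_map_val]

theorem qcEsymm_apply_eq (hG : IsMF (G0 p) k G) {j : ℕ} (hj : j ≤ p + 1) (z : ℍ) :
    qcEsymm p k G j z = (-1) ^ j * ((qcPolyFun hG).coeff (p + 1 - j)).1 z := by
  set s : Multiset ℂ := (Finset.univ : Finset (Idx p)).val.map fun x => conj k p G x z with hs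
  have hcard : Multiset.card s = p + 1 := by
    simp [hs, Idx]
  have h1 : (s.map fun r => X - C r).prod = ∏ x : Idx p, (X - C (conj k p G x z)) := by
    rw [hs, Multiset.map_map]
    rfl
  have h2 := Multiset.prod_X_sub_C_coeff s (k := p + 1 - j) (by rw [hcard]; omega)
  rw [h1, ← qcPolyFun_map_evalHom hG z, Polynomial.coeff_map, hcard,
    show p + 1 - (p + 1 - j) = j by omega] at h2
  have h3 : qcEsymm p k G j z = s.esymm j := rfl
  rw [h3, ← evalHom_apply, h2, ← mul_assoc, ← pow_add, ← two_mul, pow_mul]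
  simp

theorem qcEsymm_eq (hG : IsMF (G0 p) k G) {j : ℕ} (hj : j ≤ p + 1) :
    qcEsymm p k G j =
      (((-1) ^ j * (qcPolyFun hG).coeff (p + 1 - j) : puiseuxSubring) : ℍ → ℂ) := by
  funext z
  rw [qcEsymm_apply_eq hG hj z]
  simp

theorem isPuiseux_qcEsymm (hG : IsMF (G0 p) k G) {j : ℕ} (hj : j ≤ p + 1) :
    IsPuiseux 1 (qcEsymm p k G j) := by
  rw [qcEsymm_eq hG hj]
  exact Subtype.property _

/-- **MAIN THEOREM**: the `q`-expansion of the `j`-th elementary symmetric function of the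
conjugates is, up to sign, a coefficient of `qcPoly`. -/
theorem qExpansion_qcEsymm (hG : IsMF (G0 p) k G) {j : ℕ} (hj : j ≤ p + 1) :
    qExpansion (1 : ℝ) (qcEsymm p k G j) = (-1) ^ j * (qcPoly p k G).coeff (p + 1 - j) := by
  rw [qcEsymm_eq hG hj, ← qExpHom_apply, map_mul, map_pow, map_neg, map_one,
    ← qcPolyFun_map_qExpHom hG, Polynomial.coeff_map]

/-! ### Descent to a coefficient ring -/

omit [NeZero p] in
/-- **descent**: if the `q`-expansion of `G` at `∞` and the Puiseux components of `G ∣[k] S` come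
from power series over `A` (via `ι : A →+* ℂ`), so does `qcPoly`. -/
theorem qcPoly_eq_map {A : Type*} [CommRing A] (ι : A →+* ℂ) (a : PowerSeries A)
    (b : ℕ → PowerSeries A) (ha : PowerSeries.map ι a = qExpansion (1 : ℝ) G)
    (hb : ∀ i, i < p → PowerSeries.map ι (b i) = comp p i (qcCuspZero k G)) :
    qcPoly p k G = ((X - C a) *
      (qcirc p b (PowerSeries.X : PowerSeries A)).charpoly).map (PowerSeries.map ι) := by
  rw [Polynomial.map_mul, Polynomial.map_sub, map_X, map_C, ha, ← charpoly_qcirc_map,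
    PowerSeries.map_X, qcPoly]
  congr 2
  exact qcirc_congr p _ fun i hi => (hb i hi).symm

omit [NeZero p] in
/-- ring homomorphisms commute with `Multiset.esymm` -/
lemma qc_map_multiset_esymm {R S : Type*} [CommSemiring R] [CommSemiring S] (f : R →+* S)
    (s : Multiset R) (n : ℕ) : f (s.esymm n) = (s.map f).esymm n := by
  simp only [Multiset.esymm, Multiset.powersetCard_map, map_multiset_sum, Multiset.map_map,
    Function.comp_def, map_multiset_prod]

omit [NeZero p] in
/-- Vieta for `(X - x) * (X - y) ^ p` -/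
lemma qc_coeff_X_sub_C_mul_pow {R : Type*} [CommRing R] (x y : R) (p : ℕ) {j : ℕ} (hj : j ≤ p + 1) :
    ((X - C x) * (X - C y) ^ p : R[X]).coeff (p + 1 - j) =
      (-1) ^ j * (x ::ₘ Multiset.replicate p y).esymm j := by
  set s : Multiset R := x ::ₘ Multiset.replicate p y with hs
  have hcard : Multiset.card s = p + 1 := by simp [hs]
  have h1 : (s.map fun r => X - C r).prod = (X - C x) * (X - C y) ^ p := by
    simp [hs, Multiset.map_replicate, Multiset.prod_replicate]
  have h2 := Multiset.prod_X_sub_C_coeff s (k := p + 1 - j) (by rw [hcard]; omega)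
  rw [h1, hcard, show p + 1 - (p + 1 - j) = j by omega] at h2
  exact h2

/-- the integral model of the `q`-expansion of `qcEsymm p k G j`: for `a` the `q`-expansion of
`G` at `∞` and `b i` (`i < p`) the Puiseux components of `G ∣[k] S`, all over a ring `A`, this is
`(-1) ^ j * coeff_{p+1-j} ((X - a) * charpoly (qcirc p b q))`. -/
noncomputable def qcEsymmModel {A : Type*} [CommRing A] (p : ℕ) (a : PowerSeries A)
    (b : ℕ → PowerSeries A) (j : ℕ) : PowerSeries A :=
  (-1) ^ j * ((X - C a) *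
    (qcirc p b (PowerSeries.X : PowerSeries A)).charpoly).coeff (p + 1 - j)

/-- **integral model**: over a coefficient ring `A` (with `ι : A →+* ℂ`), the `q`-expansion of
`qcEsymm p k G j` is the image of `qcEsymmModel p a b j`. -/
theorem map_qcEsymmModel (hG : IsMF (G0 p) k G) {A : Type*} [CommRing A] (ι : A →+* ℂ)
    (a : PowerSeries A) (b : ℕ → PowerSeries A) (ha : PowerSeries.map ι a = qExpansion (1 : ℝ) G)
    (hb : ∀ i, i < p → PowerSeries.map ι (b i) = comp p i (qcCuspZero k G)) {j : ℕ}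
    (hj : j ≤ p + 1) :
    PowerSeries.map ι (qcEsymmModel p a b j) = qExpansion (1 : ℝ) (qcEsymm p k G j) := by
  rw [qcEsymmModel, qExpansion_qcEsymm hG hj, qcPoly_eq_map ι a b ha hb, Polynomial.coeff_map,
    map_mul, map_pow, map_neg, map_one]

omit [NeZero p] in
/-- **congruence**: if a ring homomorphism `φ` on `A⟦q⟧` (e.g. reduction modulo an ideal) kills
`b i` for `0 < i < p`, then `qcEsymmModel p a b j` maps to `esymm_j (φ a, φ (b 0), …, φ (b 0))`. -/
theorem map_qcEsymmModel_of_eq_zero {A B : Type*} [CommRing A] [CommRing B]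
    (φ : PowerSeries A →+* B) (a : PowerSeries A) (b : ℕ → PowerSeries A)
    (hφ : ∀ i, 0 < i → i < p → φ (b i) = 0) {j : ℕ} (hj : j ≤ p + 1) :
    φ (qcEsymmModel p a b j) = (φ a ::ₘ Multiset.replicate p (φ (b 0))).esymm j := by
  rw [qcEsymmModel, map_mul, map_pow, map_neg, map_one, ← Polynomial.coeff_map, Polynomial.map_mul,
    Polynomial.map_sub, map_X, map_C, charpoly_qcirc_map_of_map_eq_zero φ p b _ hφ,
    qc_coeff_X_sub_C_mul_pow _ _ p hj, ← mul_assoc, ← pow_add, ← two_mul, pow_mul]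
  simp

/-- **integrality**: if the `q`-expansion coefficients of `G` at `∞` and the `q^(1/p)`-expansion
coefficients of `G ∣[k] S` lie in a subring `R ⊆ ℂ`, so do the `q`-expansion coefficients of the
elementary symmetric functions of the conjugates. -/
theorem coeff_qExpansion_qcEsymm_mem (hG : IsMF (G0 p) k G) (R : Subring ℂ)
    (h1 : ∀ n, (qExpansion (1 : ℝ) G).coeff n ∈ R)
    (h2 : ∀ n, (qExpansion (p : ℝ) (qcCuspZero k G)).coeff n ∈ R) {j : ℕ} (hj : j ≤ p + 1) (n : ℕ) :
    (qExpansion (1 : ℝ) (qcEsymm p k G j)).coeff n ∈ R := by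
  have he := map_qcEsymmModel hG R.subtype
    (PowerSeries.mk fun n => (⟨_, h1 n⟩ : R))
    (fun i => PowerSeries.mk fun l => (⟨_, h2 (i + l * p)⟩ : R))
    (by ext n; simp) (fun i _ => by ext l; simp) hj
  rw [← he, PowerSeries.coeff_map]
  exact Subtype.property _

end Fermat.Agent.S16.Conj
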