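import Fermat.Agent.S16.Conj.SymCoset
import Fermat.Agent.S16.Conj.CharPoly

/-!
# T16 / piece C (helper20): `q`-expansions of helper23's level-one forms `normForm G i`

Bridge between `Conj/SymCoset.lean` (helper23: `normForm G i : ModularForm 𝒮ℒ (i * k)`,
`coe_normForm : ⇑(normForm G i) = qcEsymm p k G i`, `isMF_qcEsymm`) and `Conj/CharPoly.lean`
(helper20: the `q`-expansion of the elementary symmetric functions of the conjugates is a
coefficient of `qcPoly`).

Exported (namespace `Fermat.Agent.S16.Conj`, `[Fact p.Prime]`, `G : ModularForm (Gamma0 p) k`):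
* `qExpansion_normForm G (hi : i ≤ p + 1) :
    qExpansion 1 (normForm G i) = (-1) ^ i * (qcPoly p k G).coeff (p + 1 - i)`
* `map_qcEsymmModel_eq_qExpansion_normForm G (ι : A →+* ℂ) a b
    (ha : PowerSeries.map ι a = qExpansion 1 G)
    (hb : ∀ i < p, PowerSeries.map ι (b i) = comp p i (qcCuspZero k G)) (hi : i ≤ p + 1) :
    PowerSeries.map ι (qcEsymmModel p a b i) = qExpansion 1 (normForm G i)`
  (combine with `map_qcEsymmModel_of_eq_zero` for congruences)
* `coeff_qExpansion_normForm_mem G (R : Subring ℂ) (h1 : ∀ n, (qExpansion 1 G).coeff n ∈ R)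
    (h2 : ∀ n, (qExpansion p (qcCuspZero k G)).coeff n ∈ R) (hi : i ≤ p + 1) n :
    (qExpansion 1 (normForm G i)).coeff n ∈ R`
-/

set_option autoImplicit false

open UpperHalfPlane ModularForm CongruenceSubgroup
open scoped MatrixGroups ModularForm Manifold

namespace Fermat.Agent.S16.Conj

open Fermat.Agent.S20.Puiseux

variable {p : ℕ} {k : ℤ}

/-- a level `p` form is `IsMF` in the sense of `S23` -/
lemma qc_isMF (G : ModularForm (Gamma0 p) k) : Fermat.Agent.S23.IsMF (Fermat.Agent.S23.G0 p) k G :=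
  ⟨G, rfl⟩

variable [Fact p.Prime]

lemma qc_neZero : NeZero p := ⟨(Fact.out : p.Prime).ne_zero⟩

theorem qExpansion_normForm (G : ModularForm (Gamma0 p) k) {i : ℕ} (hi : i ≤ p + 1) :
    qExpansion (1 : ℝ) (normForm G i) = (-1) ^ i * (qcPoly p k G).coeff (p + 1 - i) := by
  have : NeZero p := qc_neZero
  rw [coe_normForm, qExpansion_qcEsymm (qc_isMF G) hi]

theorem map_qcEsymmModel_eq_qExpansion_normForm (G : ModularForm (Gamma0 p) k) {A : Type*}
    [CommRing A] (ι : A →+* ℂ) (a : PowerSeries A) (b : ℕ → PowerSeries A)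
    (ha : PowerSeries.map ι a = qExpansion (1 : ℝ) G)
    (hb : ∀ i, i < p → PowerSeries.map ι (b i) = comp p i (qcCuspZero k G)) {i : ℕ}
    (hi : i ≤ p + 1) :
    PowerSeries.map ι (qcEsymmModel p a b i) = qExpansion (1 : ℝ) (normForm G i) := by
  have : NeZero p := qc_neZero
  rw [coe_normForm, map_qcEsymmModel (qc_isMF G) ι a b ha hb hi]

theorem coeff_qExpansion_normForm_mem (G : ModularForm (Gamma0 p) k) (R : Subring ℂ)
    (h1 : ∀ n, (qExpansion (1 : ℝ) G).coeff n ∈ R)
    (h2 : ∀ n, (qExpansion (p : ℝ) (qcCuspZero k G)).coeff n ∈ R) {i : ℕ} (hi : i ≤ p + 1)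
    (n : ℕ) : (qExpansion (1 : ℝ) (normForm G i)).coeff n ∈ R := by
  have : NeZero p := qc_neZero
  rw [coe_normForm]
  exact coeff_qExpansion_qcEsymm_mem (qc_isMF G) R h1 h2 hi n

end Fermat.Agent.S16.Conj
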