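/-
T16 / package C (conjugates), owner helper23.  Coset representatives of `Γ₀(p) \ SL(2,ℤ)`
and the level-one forms `normForm G i = e_i (conjugates of G)`.
-/
import Fermat.Agent.S16.Conj.Defs
import Fermat.Agent.S16.Conj.CharPoly
import Fermat.Agent.S23.Symm

set_option autoImplicit false
set_option linter.unusedSectionVars false

open UpperHalfPlane ModularForm SlashInvariantForm CongruenceSubgroup
open scoped MatrixGroups ModularForm Manifold

namespace Fermat.Agent.S16.Conj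

variable {p : ℕ}

lemma coe_rep_some (j : Fin p) :
    (rep p (some j)).1 = !![0, -1; 1, ((j : ℕ) : ℤ)] := by
  rw [rep_some, ← zpow_natCast, Matrix.SpecialLinearGroup.coe_mul, ModularGroup.coe_T_zpow,
    ModularGroup.coe_S]
  ext a b
  fin_cases a <;> fin_cases b <;> simp [Matrix.mul_apply, Fin.sum_univ_two]

lemma coe_rep_some_inv (j : Fin p) :
    ((rep p (some j))⁻¹).1 = !![((j : ℕ) : ℤ), 1; -1, 0] := by
  rw [Matrix.SpecialLinearGroup.coe_inv, coe_rep_some, Matrix.adjugate_fin_two_of]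
  simp

/-- every element of `SL(2,ℤ)` lies in one of the cosets `Γ₀(p)·(rep x)⁻¹`... more precisely
`rep x * γ ∈ Γ₀(p)` for some `x`. -/
lemma exists_rep_mul_mem [Fact p.Prime] (γ : SL(2, ℤ)) : ∃ x : Idx p, rep p x * γ ∈ Gamma0 p := by
  have hp : p.Prime := Fact.out
  have : NeZero p := ⟨hp.ne_zero⟩
  by_cases h : ((γ 1 0 : ℤ) : ZMod p) = 0
  · exact ⟨none, by simpa [Gamma0_mem] using h⟩
  · set c : ZMod p := ((γ 1 0 : ℤ) : ZMod p) with hc
    set a : ZMod p := ((γ 0 0 : ℤ) : ZMod p) with ha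
    let j : Fin p := ⟨(-a * c⁻¹).val, ZMod.val_lt _⟩
    refine ⟨some j, ?_⟩
    rw [Gamma0_mem]
    have h1 : ((rep p (some j) * γ) 1 0 : ℤ) = γ 0 0 + ((j : ℕ) : ℤ) * γ 1 0 := by
      show ((rep p (some j) * γ).1 1 0 : ℤ) = _
      rw [Matrix.SpecialLinearGroup.coe_mul, coe_rep_some]
      simp [Matrix.mul_apply, Fin.sum_univ_two]
    rw [h1]
    push_cast
    show a + (((-a * c⁻¹).val : ℕ) : ZMod p) * c = 0
    rw [ZMod.natCast_zmod_val, mul_assoc, inv_mul_cancel₀ h]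
    ring

/-- distinct representatives lie in distinct cosets. -/
lemma rep_injective [Fact p.Prime] {x y : Idx p} (h : rep p x * (rep p y)⁻¹ ∈ Gamma0 p) :
    x = y := by
  have hp : p.Prime := Fact.out
  have h1 : ¬ ((1 : ℤ) : ZMod p) = 0 := by
    rw [ZMod.intCast_zmod_eq_zero_iff_dvd]
    intro hd
    have := Int.natCast_dvd_natCast.mp (by simpa using hd : ((p : ℕ) : ℤ) ∣ ((1 : ℕ) : ℤ))
    exact hp.one_lt.ne' (Nat.dvd_one.mp this)
  rw [Gamma0_mem] at h
  rcases x with _ | i <;> rcases y with _ | j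
  · rfl
  · exfalso
    have h2 : ((rep p none * (rep p (some j))⁻¹) 1 0 : ℤ) = -1 := by
      show ((rep p none * (rep p (some j))⁻¹).1 1 0 : ℤ) = _
      rw [rep_none, one_mul, coe_rep_some_inv]
      simp
    rw [h2] at h
    apply h1
    have : ((-1 : ℤ) : ZMod p) = -((1 : ℤ) : ZMod p) := by push_cast; ring
    rw [this, neg_eq_zero] at h
    exact h
  · exfalso
    have h2 : ((rep p (some i) * (rep p none)⁻¹) 1 0 : ℤ) = 1 := by
      show ((rep p (some i) * (rep p none)⁻¹).1 1 0 : ℤ) = _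
      rw [rep_none, inv_one, mul_one, coe_rep_some]
      simp
    rw [h2] at h
    exact h1 h
  · have h2 : ((rep p (some i) * (rep p (some j))⁻¹) 1 0 : ℤ) = ((j : ℕ) : ℤ) - ((i : ℕ) : ℤ) := by
      show ((rep p (some i) * (rep p (some j))⁻¹).1 1 0 : ℤ) = _
      rw [Matrix.SpecialLinearGroup.coe_mul, coe_rep_some, coe_rep_some_inv]
      simp [Matrix.mul_apply, Fin.sum_univ_two]
      ring
    rw [h2, ZMod.intCast_zmod_eq_zero_iff_dvd] at h
    have hi := i.2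
    have hj := j.2
    have h3 : ((j : ℕ) : ℤ) - ((i : ℕ) : ℤ) = 0 := by
      apply Int.eq_zero_of_abs_lt_dvd h
      rw [abs_lt]
      constructor <;> omega
    have : (i : ℕ) = (j : ℕ) := by omega
    exact congrArg some (Fin.ext this)

/-! ### The equivalence with the quotient `𝒮ℒ ⧸ Γ₀(p)` and the level-one forms -/

section quot

variable (p)

local notation "Γp" => ((Gamma0 p : Subgroup SL(2, ℤ)) : Subgroup (GL (Fin 2) ℝ))

local notation "𝒬p" => 𝒮ℒ ⧸ Subgroup.subgroupOf Γp 𝒮ℒ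

/-- the class of `(rep x)⁻¹` in `𝒮ℒ ⧸ Γ₀(p)`. -/
noncomputable def toQuot (x : Idx p) : 𝒬p :=
  QuotientGroup.mk (⟨Matrix.SpecialLinearGroup.mapGL ℝ (rep p x)⁻¹, ⟨(rep p x)⁻¹, rfl⟩⟩ : 𝒮ℒ)

lemma mapGL_mem_iff (γ : SL(2, ℤ)) :
    (Matrix.SpecialLinearGroup.mapGL ℝ γ : GL (Fin 2) ℝ) ∈ Γp ↔ γ ∈ Gamma0 p := by
  constructor
  · rintro ⟨δ, hδ, h⟩
    have := Matrix.SpecialLinearGroup.mapGL_injective (R := ℤ) (S := ℝ) h
    rwa [← this]
  · intro h
    exact ⟨γ, h, rfl⟩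

variable [Fact p.Prime]

lemma toQuot_injective : Function.Injective (toQuot p) := by
  intro x y h
  rw [toQuot, toQuot, QuotientGroup.eq, Subgroup.mem_subgroupOf] at h
  apply rep_injective (p := p)
  have h2 : ((⟨Matrix.SpecialLinearGroup.mapGL ℝ (rep p x)⁻¹, ⟨(rep p x)⁻¹, rfl⟩⟩ : 𝒮ℒ)⁻¹ *
      (⟨Matrix.SpecialLinearGroup.mapGL ℝ (rep p y)⁻¹, ⟨(rep p y)⁻¹, rfl⟩⟩ : 𝒮ℒ) : 𝒮ℒ).1 =
      Matrix.SpecialLinearGroup.mapGL ℝ (rep p x * (rep p y)⁻¹) := by
    simp [map_mul, map_inv]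
  rw [h2, mapGL_mem_iff] at h
  exact h

lemma toQuot_surjective : Function.Surjective (toQuot p) := by
  intro q
  induction q using QuotientGroup.induction_on with
  | H g =>
    obtain ⟨g, ⟨γ, rfl⟩⟩ := g
    obtain ⟨x, hx⟩ := exists_rep_mul_mem (p := p) γ
    refine ⟨x, ?_⟩
    rw [toQuot, QuotientGroup.eq, Subgroup.mem_subgroupOf]
    have h2 : ((⟨Matrix.SpecialLinearGroup.mapGL ℝ (rep p x)⁻¹, ⟨(rep p x)⁻¹, rfl⟩⟩ : 𝒮ℒ)⁻¹ *
        (⟨Matrix.SpecialLinearGroup.mapGL ℝ γ, ⟨γ, rfl⟩⟩ : 𝒮ℒ) : 𝒮ℒ).1 =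
        Matrix.SpecialLinearGroup.mapGL ℝ (rep p x * γ) := by
      simp [map_mul, map_inv]
    rw [h2, mapGL_mem_iff]
    exact hx

/-- `Idx p ≃ 𝒮ℒ ⧸ Γ₀(p)`. -/
noncomputable def quotEquiv : Idx p ≃ 𝒬p :=
  Equiv.ofBijective (toQuot p) ⟨toQuot_injective p, toQuot_surjective p⟩

lemma quotEquiv_apply (x : Idx p) : quotEquiv p x = toQuot p x := rfl

variable {p} {k : ℤ}

lemma quotientFunc_toQuot (G : ModularForm (Gamma0 p) k) (x : Idx p) :
    quotientFunc G (toQuot p x) = conj k p G x := by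
  show quotientFunc G (⟦(⟨Matrix.SpecialLinearGroup.mapGL ℝ (rep p x)⁻¹, ⟨(rep p x)⁻¹, rfl⟩⟩ : 𝒮ℒ)⟧) = _
  rw [quotientFunc_mk, conj_def, ModularForm.SL_slash]
  simp only [map_inv, inv_inv]
  rfl

end quot

/-- The `i`-th elementary symmetric function of the conjugates `conj k p G x`, `x : Idx p`. -/
noncomputable def esymmConjSum (k : ℤ) (p : ℕ) (G : ℍ → ℂ) (i : ℕ) : ℍ → ℂ :=
  ∑ s ∈ Finset.powersetCard i (Finset.univ : Finset (Idx p)), ∏ x ∈ s, conj k p G x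

lemma esymmConjSum_apply (k : ℤ) (p : ℕ) (G : ℍ → ℂ) (i : ℕ) (z : ℍ) :
    esymmConjSum k p G i z =
      ((Finset.univ : Finset (Idx p)).val.map fun x => conj k p G x z).esymm i := by
  rw [Finset.esymm_map_val]
  simp [esymmConjSum, Finset.sum_apply, Finset.prod_apply]

lemma esymmFun_eq_esymmConjSum [Fact p.Prime] {k : ℤ} (G : ModularForm (Gamma0 p) k) (i : ℕ) :
    S23.esymmFun G i = esymmConjSum k p G i := by
  classical
  let _ : Fintype (𝒮ℒ ⧸ Subgroup.subgroupOf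
      ((Gamma0 p : Subgroup SL(2, ℤ)) : Subgroup (GL (Fin 2) ℝ)) 𝒮ℒ) := Fintype.ofFinite _
  unfold S23.esymmFun esymmConjSum
  symm
  refine Finset.sum_bij' (fun s _ => s.map (quotEquiv p).toEmbedding)
    (fun t _ => t.map (quotEquiv p).symm.toEmbedding) ?_ ?_ ?_ ?_ ?_
  · intro s hs
    rw [Finset.mem_powersetCard] at hs ⊢
    exact ⟨Finset.subset_univ _, by rw [Finset.card_map]; exact hs.2⟩
  · intro t ht
    rw [Finset.mem_powersetCard] at ht ⊢
    exact ⟨Finset.subset_univ _, by rw [Finset.card_map]; exact ht.2⟩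
  · intro s _
    ext x
    simp
  · intro t _
    ext x
    simp
  · intro s _
    rw [Finset.prod_map]
    refine Finset.prod_congr rfl fun x _ => ?_
    exact (quotientFunc_toQuot G x).symm

/-- **The level-one form `e_i(conjugates of G)`**, of weight `i * k`. -/
noncomputable def normForm [Fact p.Prime] {k : ℤ} (G : ModularForm (Gamma0 p) k) (i : ℕ) :
    ModularForm 𝒮ℒ ((i : ℤ) * k) :=
  S23.esymmMF G i

lemma coe_normForm_sum [Fact p.Prime] {k : ℤ} (G : ModularForm (Gamma0 p) k) (i : ℕ) :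
    ⇑(normForm G i) = esymmConjSum k p G i :=
  esymmFun_eq_esymmConjSum G i

/-- `normForm G i` is helper20's `qcEsymm p k G i` (`Conj/CharPoly.lean`), whose `q`-expansion is
computed there (`qExpansion_qcEsymm`, `map_qcEsymmModel`, `coeff_qExpansion_qcEsymm_mem`). -/
lemma coe_normForm [Fact p.Prime] {k : ℤ} (G : ModularForm (Gamma0 p) k) (i : ℕ) :
    ⇑(normForm G i) = qcEsymm p k G i := by
  funext z
  rw [coe_normForm_sum, esymmConjSum_apply]
  rfl

/-- `qcEsymm p k G i` is a level-one modular form of weight `i * k`. -/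
lemma isMF_qcEsymm [Fact p.Prime] {k : ℤ} (G : ModularForm (Gamma0 p) k) (i : ℕ) :
    S23.IsMF 𝒮ℒ ((i : ℤ) * k) (qcEsymm p k G i) :=
  ⟨normForm G i, coe_normForm G i⟩

end Fermat.Agent.S16.Conj
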