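import Mathlib
import Fermat.Prelude.Def_ModularForm_HeckeOperatorForms
import Fermat.Prelude.Thm_ModularFormClass_qCoeff_heckeU
import Fermat.Prelude.Thm_CongruenceSubgroup_one_mem_strictPeriods_Gamma0

/-!
# T16 / package C, file `Conj/Trace.lean` (helper16)

Trace from `Γ₀(p)` to level one, the Fricke involution `W_p`, and the trace identities
`(h1)`, `(h2)`, `(I3)` consumed by the `TraceCases` package.
-/

set_option autoImplicit false

open UpperHalfPlane ModularForm SlashInvariantForm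
open scoped MatrixGroups ModularForm Manifold

namespace Fermat.Agent.S16.Conj.Trace

open Matrix.SpecialLinearGroup CongruenceSubgroup

/-! ## Section A: explicit coset representatives of `Γ₀(p)` in `SL(2, ℤ)` -/

variable (p : ℕ)

/-- The level group `Γ₀(p)` inside `GL (Fin 2) ℝ`. -/
abbrev lvl : Subgroup (GL (Fin 2) ℝ) := Subgroup.map (mapGL ℝ) (Gamma0 p)

/-- The coset space `SL(2, ℤ) / Γ₀(p)` (inside `GL (Fin 2) ℝ`), the index set of the conjugates. -/
abbrev CosetSp : Type := ↥(𝒮ℒ) ⧸ (lvl p).subgroupOf 𝒮ℒ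

/-- The class of `g : SL(2, ℤ)` in the coset space. -/
def mkQ (g : SL(2, ℤ)) : CosetSp p :=
  QuotientGroup.mk ((mapGL ℝ : SL(2, ℤ) →* GL (Fin 2) ℝ).rangeRestrict g)

theorem mkQ_surjective : Function.Surjective (mkQ p) := by
  intro x
  induction x using QuotientGroup.induction_on with
  | H z =>
    obtain ⟨g, hg⟩ := (mapGL ℝ : SL(2, ℤ) →* GL (Fin 2) ℝ).rangeRestrict_surjective z
    exact ⟨g, by rw [mkQ, hg]⟩

theorem mkQ_eq_iff (g h : SL(2, ℤ)) : mkQ p g = mkQ p h ↔ g⁻¹ * h ∈ Gamma0 p := by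
  rw [mkQ, mkQ, QuotientGroup.eq, Subgroup.mem_subgroupOf]
  simp only [Subgroup.coe_mul, InvMemClass.coe_inv, MonoidHom.coe_rangeRestrict]
  rw [← map_inv, ← map_mul, Subgroup.mem_map]
  constructor
  · rintro ⟨x, hx, hxe⟩
    rwa [← mapGL_injective hxe]
  · intro hx
    exact ⟨_, hx, rfl⟩

variable {p} {k : ℤ}

theorem quotientFunc_mkQ (F : ModularForm (lvl p) k) (g : SL(2, ℤ)) :
    quotientFunc (ℋ := 𝒮ℒ) F (mkQ p g) = (F : ℍ → ℂ) ∣[k] g⁻¹ := by
  show quotientFunc (ℋ := 𝒮ℒ) F ⟦_⟧ = _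
  rw [quotientFunc_mk, SL_slash, map_inv]
  rfl


variable (p)

/-- The representatives: `none ↦ 1`, `some j ↦ (S T ^ j)⁻¹`. -/
def rep : Option (Fin p) → SL(2, ℤ)
  | none => 1
  | some j => (ModularGroup.S * ModularGroup.T ^ ((j : ℕ) : ℤ))⁻¹

theorem coe_ST (j : ℤ) :
    (ModularGroup.S * ModularGroup.T ^ j : SL(2, ℤ)).1 = !![0, -1; 1, j] := by
  rw [Matrix.SpecialLinearGroup.coe_mul, ModularGroup.coe_T_zpow, ModularGroup.coe_S]
  ext i j
  fin_cases i <;> fin_cases j <;> simp [Matrix.mul_apply, Fin.sum_univ_two]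

theorem mem_Gamma0_iff_dvd {g : SL(2, ℤ)} : g ∈ Gamma0 p ↔ (p : ℤ) ∣ g 1 0 := by
  rw [Gamma0_mem, ZMod.intCast_zmod_eq_zero_iff_dvd]

variable [Fact p.Prime]

theorem ST_mul_ST_inv_apply (i j : ℤ) :
    ((ModularGroup.S * ModularGroup.T ^ i) * (ModularGroup.S * ModularGroup.T ^ j)⁻¹ : SL(2, ℤ)) 1 0
      = j - i := by
  have h1 : ((ModularGroup.S * ModularGroup.T ^ i) *
      (ModularGroup.S * ModularGroup.T ^ j)⁻¹ : SL(2, ℤ)).1
      = (ModularGroup.S * ModularGroup.T ^ i : SL(2, ℤ)).1 *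
        (ModularGroup.S * ModularGroup.T ^ j : SL(2, ℤ))⁻¹.1 := by
    rw [Matrix.SpecialLinearGroup.coe_mul]
  have h2 : ((ModularGroup.S * ModularGroup.T ^ j : SL(2, ℤ))⁻¹).1 = !![j, 1; -1, 0] := by
    rw [Matrix.SpecialLinearGroup.coe_inv, coe_ST, Matrix.adjugate_fin_two_of]
    simp
  show ((ModularGroup.S * ModularGroup.T ^ i) *
      (ModularGroup.S * ModularGroup.T ^ j)⁻¹ : SL(2, ℤ)).1 1 0 = _
  rw [h1, h2, coe_ST]
  simp [Matrix.mul_apply, Fin.sum_univ_two]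
  ring

theorem mkQ_rep_injective : Function.Injective (fun x => mkQ p (rep p x)) := by
  have hp : (p : ℤ) ≠ 1 := by
    exact_mod_cast (Fact.out : p.Prime).one_lt.ne'
  intro x y hxy
  simp only at hxy
  rw [mkQ_eq_iff, mem_Gamma0_iff_dvd] at hxy
  rcases x with _ | i <;> rcases y with _ | j
  · rfl
  · exfalso
    simp only [rep, inv_one, one_mul] at hxy
    have : ((ModularGroup.S * ModularGroup.T ^ ((j : ℕ) : ℤ) : SL(2, ℤ))⁻¹) 1 0 = -1 := by
      show ((ModularGroup.S * ModularGroup.T ^ ((j : ℕ) : ℤ) : SL(2, ℤ))⁻¹).1 1 0 = -1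
      rw [Matrix.SpecialLinearGroup.coe_inv, coe_ST, Matrix.adjugate_fin_two_of]
      simp
    rw [this] at hxy
    have := Int.eq_one_of_dvd_one (by positivity) ((dvd_neg).mp hxy)
    exact hp this
  · exfalso
    simp only [rep, inv_inv, mul_one] at hxy
    have : (ModularGroup.S * ModularGroup.T ^ ((i : ℕ) : ℤ) : SL(2, ℤ)) 1 0 = 1 := by
      show (ModularGroup.S * ModularGroup.T ^ ((i : ℕ) : ℤ) : SL(2, ℤ)).1 1 0 = 1
      rw [coe_ST]; simp
    rw [this] at hxy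
    exact hp (Int.eq_one_of_dvd_one (by positivity) hxy)
  · simp only [rep, inv_inv] at hxy
    rw [ST_mul_ST_inv_apply] at hxy
    congr 1
    apply Fin.ext
    have h1 : ((i : ℕ) : ℤ) ≡ ((j : ℕ) : ℤ) [ZMOD (p : ℤ)] :=
      (Int.modEq_iff_dvd.mpr hxy)
    exact Nat.ModEq.eq_of_lt_of_lt (Int.natCast_modEq_iff.mp h1) i.2 j.2

theorem mkQ_rep_surjective : Function.Surjective (fun x => mkQ p (rep p x)) := by
  intro x
  obtain ⟨g, rfl⟩ := mkQ_surjective p x
  by_cases hc : (p : ℤ) ∣ g 1 0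
  · refine ⟨none, ?_⟩
    simp only [rep]
    rw [mkQ_eq_iff, inv_one, one_mul, mem_Gamma0_iff_dvd]
    exact hc
  · have hc' : ((g 1 0 : ℤ) : ZMod p) ≠ 0 := by
      rwa [Ne, ZMod.intCast_zmod_eq_zero_iff_dvd]
    set jz : ZMod p := -((g 0 0 : ℤ) : ZMod p) * ((g 1 0 : ℤ) : ZMod p)⁻¹ with hjz
    refine ⟨some ⟨jz.val, ZMod.val_lt jz⟩, ?_⟩
    simp only [rep]
    rw [mkQ_eq_iff, inv_inv, mem_Gamma0_iff_dvd]
    have h1 : ((ModularGroup.S * ModularGroup.T ^ ((jz.val : ℕ) : ℤ)) * g : SL(2, ℤ)) 1 0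
        = g 0 0 + (jz.val : ℤ) * g 1 0 := by
      show ((ModularGroup.S * ModularGroup.T ^ ((jz.val : ℕ) : ℤ)) * g : SL(2, ℤ)).1 1 0 = _
      rw [Matrix.SpecialLinearGroup.coe_mul, coe_ST]
      simp [Matrix.mul_apply, Fin.sum_univ_two]
    rw [h1, ← ZMod.intCast_zmod_eq_zero_iff_dvd]
    push_cast
    rw [ZMod.natCast_zmod_val, hjz, neg_mul, neg_mul, inv_mul_cancel_right₀ hc', add_neg_cancel]

/-- Explicit enumeration of the `p + 1` cosets: `none ↦ [1]`, `some j ↦ [(S T ^ j)⁻¹]`. -/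
noncomputable def cosetEquiv : Option (Fin p) ≃ CosetSp p :=
  Equiv.ofBijective _ ⟨mkQ_rep_injective p, mkQ_rep_surjective p⟩

theorem cosetEquiv_apply (x : Option (Fin p)) : cosetEquiv p x = mkQ p (rep p x) := rfl


/-! ## Section B: scalar matrices and the Fricke matrix -/

/-- The scalar matrix `c • 1` in `GL (Fin 2) ℝ`. -/
noncomputable def scalarGL (c : ℝ) (hc : c ≠ 0) : GL (Fin 2) ℝ :=
  Matrix.GeneralLinearGroup.mkOfDetNeZero !![c, 0; 0, c] (by
    rw [Matrix.det_fin_two_of]; simpa using hc)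

@[simp] theorem val_scalarGL (c : ℝ) (hc : c ≠ 0) :
    ((scalarGL c hc : GL (Fin 2) ℝ) : Matrix (Fin 2) (Fin 2) ℝ) = !![c, 0; 0, c] := rfl

theorem det_scalarGL (c : ℝ) (hc : c ≠ 0) : ((scalarGL c hc).det : ℝ) = c * c := by
  rw [Matrix.GeneralLinearGroup.val_det_apply, val_scalarGL, Matrix.det_fin_two_of]
  ring

theorem det_scalarGL_pos (c : ℝ) (hc : c ≠ 0) : 0 < ((scalarGL c hc).det : ℝ) := by
  rw [det_scalarGL]; exact mul_self_pos.mpr hc

theorem slash_scalarGL (k : ℤ) (c : ℝ) (hc : c ≠ 0) (f : ℍ → ℂ) :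
    f ∣[k] scalarGL c hc = ((c : ℂ) ^ (k - 2)) • f := by
  have hc' : (c : ℂ) ≠ 0 := Complex.ofReal_ne_zero.mpr hc
  ext τ
  have hsm : scalarGL c hc • τ = τ := by
    apply UpperHalfPlane.ext
    rw [UpperHalfPlane.coe_smul_of_det_pos (det_scalarGL_pos c hc)]
    simp only [UpperHalfPlane.num, UpperHalfPlane.denom, val_scalarGL]
    simp
    field_simp
  have hden : UpperHalfPlane.denom (scalarGL c hc) τ = c := by
    simp [UpperHalfPlane.denom, val_scalarGL]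
  have hσ : UpperHalfPlane.σ (scalarGL c hc) = .refl ℝ ℂ := by
    rw [UpperHalfPlane.σ, if_pos (det_scalarGL_pos c hc)]
  rw [ModularForm.slash_apply, hσ, hsm, hden, det_scalarGL, Pi.smul_apply, smul_eq_mul]
  simp only [ContinuousAlgEquiv.refl_apply, abs_mul_self, Complex.ofReal_mul]
  rw [mul_zpow, mul_assoc, mul_comm, ← zpow_add₀ hc', ← zpow_add₀ hc']
  congr 2
  ring


theorem val_mapGL_eq (g : SL(2, ℤ)) :
    ((mapGL ℝ g : GL (Fin 2) ℝ) : Matrix (Fin 2) (Fin 2) ℝ)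
      = !![((g 0 0 : ℤ) : ℝ), ((g 0 1 : ℤ) : ℝ); ((g 1 0 : ℤ) : ℝ), ((g 1 1 : ℤ) : ℝ)] := by
  ext a b
  fin_cases a <;> fin_cases b <;> simp

theorem ST_apply (j : ℤ) :
    (ModularGroup.S * ModularGroup.T ^ j : SL(2, ℤ)) 0 0 = 0 ∧
    (ModularGroup.S * ModularGroup.T ^ j : SL(2, ℤ)) 0 1 = -1 ∧
    (ModularGroup.S * ModularGroup.T ^ j : SL(2, ℤ)) 1 0 = 1 ∧
    (ModularGroup.S * ModularGroup.T ^ j : SL(2, ℤ)) 1 1 = j := by
  have h := coe_ST j
  refine ⟨?_, ?_, ?_, ?_⟩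
  · show (ModularGroup.S * ModularGroup.T ^ j : SL(2, ℤ)).1 0 0 = 0
    rw [h]; rfl
  · show (ModularGroup.S * ModularGroup.T ^ j : SL(2, ℤ)).1 0 1 = -1
    rw [h]; rfl
  · show (ModularGroup.S * ModularGroup.T ^ j : SL(2, ℤ)).1 1 0 = 1
    rw [h]; rfl
  · show (ModularGroup.S * ModularGroup.T ^ j : SL(2, ℤ)).1 1 1 = j
    rw [h]; rfl

theorem p_ne_zero' : (p : ℝ) ≠ 0 := Nat.cast_ne_zero.mpr (Fact.out : p.Prime).ne_zero

/-- The Fricke matrix `W_p = !![0, -1; p, 0]`. -/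
noncomputable def frickeMatrix : GL (Fin 2) ℝ :=
  Matrix.GeneralLinearGroup.mkOfDetNeZero !![0, -1; (p : ℝ), 0] (by
    rw [Matrix.det_fin_two_of]
    simpa using p_ne_zero' p)

@[simp] theorem val_frickeMatrix :
    ((frickeMatrix p : GL (Fin 2) ℝ) : Matrix (Fin 2) (Fin 2) ℝ) = !![0, -1; (p : ℝ), 0] := rfl

theorem det_frickeMatrix : ((frickeMatrix p).det : ℝ) = p := by
  rw [Matrix.GeneralLinearGroup.val_det_apply, val_frickeMatrix, Matrix.det_fin_two_of]
  ring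

theorem det_frickeMatrix_pos : 0 < ((frickeMatrix p).det : ℝ) := by
  rw [det_frickeMatrix]; exact_mod_cast (Fact.out : p.Prime).pos

/-- `W_p * !![1, j; 0, p] = (p • 1) * (S T ^ j)`. -/
theorem frickeMatrix_mul_heckeMatrix (j : ℕ) :
    frickeMatrix p * ModularForm.heckeMatrix p j
      = scalarGL p (p_ne_zero' p) * mapGL ℝ (ModularGroup.S * ModularGroup.T ^ (j : ℤ)) := by
  apply Units.ext
  obtain ⟨h00, h01, h10, h11⟩ := ST_apply (j : ℤ)
  rw [Units.val_mul, Units.val_mul, val_frickeMatrix,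
    ModularForm.val_heckeMatrix (Fact.out : p.Prime).ne_zero, val_scalarGL, val_mapGL_eq,
    h00, h01, h10, h11]
  ext a b
  fin_cases a <;> fin_cases b <;>
    simp [Matrix.mul_apply, Fin.sum_univ_two, mul_comm]

/-- `W_p * W_p = (-p) • 1`. -/
theorem frickeMatrix_mul_self :
    frickeMatrix p * frickeMatrix p = scalarGL (-(p : ℝ)) (neg_ne_zero.mpr (p_ne_zero' p)) := by
  apply Units.ext
  rw [Units.val_mul, val_frickeMatrix, val_scalarGL]
  ext a b
  fin_cases a <;> fin_cases b <;> simp [Matrix.mul_apply, Fin.sum_univ_two]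

/-- `W_p` normalises `Γ₀(p)`: explicit conjugate. -/
theorem exists_frickeMatrix_mul (γ : SL(2, ℤ)) (hγ : γ ∈ Gamma0 p) :
    ∃ γ' ∈ Gamma0 p, frickeMatrix p * mapGL ℝ γ = mapGL ℝ γ' * frickeMatrix p := by
  obtain ⟨c', hc'⟩ := (mem_Gamma0_iff_dvd p).mp hγ
  have hdet : γ 0 0 * γ 1 1 - γ 0 1 * γ 1 0 = 1 := by
    have := γ.det_coe
    rwa [Matrix.det_fin_two] at this
  have hdet' : (!![γ 1 1, -c'; -(p : ℤ) * γ 0 1, γ 0 0] : Matrix (Fin 2) (Fin 2) ℤ).det = 1 := by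
    rw [Matrix.det_fin_two_of]
    rw [hc'] at hdet
    linear_combination hdet
  let γ' : SL(2, ℤ) := ⟨!![γ 1 1, -c'; -(p : ℤ) * γ 0 1, γ 0 0], hdet'⟩
  have e00 : γ' 0 0 = γ 1 1 := rfl
  have e01 : γ' 0 1 = -c' := rfl
  have e10 : γ' 1 0 = -(p : ℤ) * γ 0 1 := rfl
  have e11 : γ' 1 1 = γ 0 0 := rfl
  refine ⟨γ', ?_, ?_⟩
  · rw [mem_Gamma0_iff_dvd, e10]
    exact ⟨-γ 0 1, by ring⟩
  · apply Units.ext
    rw [Units.val_mul, Units.val_mul, val_frickeMatrix, val_mapGL_eq, val_mapGL_eq,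
      e00, e01, e10, e11]
    have hc'' : ((γ 1 0 : ℤ) : ℝ) = (p : ℝ) * (c' : ℝ) := by
      rw [hc']; push_cast; ring
    ext a b
    fin_cases a <;> fin_cases b <;>
      simp [Matrix.mul_apply, Fin.sum_univ_two, hc'', mul_comm]


open ConjAct Pointwise in
theorem lvl_le_conj : lvl p ≤ toConjAct (frickeMatrix p)⁻¹ • lvl p := by
  intro x hx
  rw [ConjAct.toConjAct_inv, Subgroup.mem_inv_pointwise_smul_iff]
  obtain ⟨γ, hγ, rfl⟩ := hx
  obtain ⟨γ', hγ', h⟩ := exists_frickeMatrix_mul p γ hγ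
  rw [ConjAct.toConjAct_smul, h, mul_inv_cancel_right]
  exact ⟨γ', hγ', rfl⟩

variable {p}

/-- `G ∣[k] W_p` as a modular form of level `Γ₀(p)` (Mathlib normalisation of the slash action:
`(G ∣[k] W_p) τ = p ^ (k - 1) * (p τ) ^ (-k) * G (-1 / (p τ))`). -/
noncomputable def frickeMF (F : ModularForm (lvl p) k) : ModularForm (lvl p) k where
  toFun := (F : ℍ → ℂ) ∣[k] frickeMatrix p
  slash_action_eq' γ hγ :=
    (ModularForm.translate F (frickeMatrix p)).slash_action_eq' γ (lvl_le_conj p hγ)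
  holo' := (ModularForm.translate F (frickeMatrix p)).holo'
  bdd_at_cusps' hc :=
    (ModularForm.translate F (frickeMatrix p)).bdd_at_cusps' (hc.mono (lvl_le_conj p))

theorem coe_frickeMF (F : ModularForm (lvl p) k) :
    (frickeMF F : ℍ → ℂ) = (F : ℍ → ℂ) ∣[k] frickeMatrix p := rfl

/-- `W_p² = -p` acts on weight `k` by the scalar `(-p) ^ (k - 2)`. -/
theorem frickeMF_frickeMF (F : ModularForm (lvl p) k) :
    (frickeMF (frickeMF F) : ℍ → ℂ) = ((-(p : ℂ)) ^ (k - 2)) • (F : ℍ → ℂ) := by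
  rw [coe_frickeMF, coe_frickeMF, ← SlashAction.slash_mul, frickeMatrix_mul_self, slash_scalarGL]
  push_cast
  rfl

/-- The conjugates at the cusp `0`: `F ∣[k] (S T ^ j) = p ^ (2 - k) • (F ∣[k] W_p) ∣[k] !![1, j; 0, p]`. -/
theorem slash_ST_eq (F : ModularForm (lvl p) k) (j : ℕ) :
    (F : ℍ → ℂ) ∣[k] (ModularGroup.S * ModularGroup.T ^ (j : ℤ))
      = ((p : ℂ) ^ (2 - k)) • ((frickeMF F : ℍ → ℂ) ∣[k] ModularForm.heckeMatrix p j) := by
  have hp : (p : ℂ) ≠ 0 := Nat.cast_ne_zero.mpr (Fact.out : p.Prime).ne_zero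
  have hσ : UpperHalfPlane.σ (mapGL ℝ (ModularGroup.S * ModularGroup.T ^ (j : ℤ)))
      = .refl ℝ ℂ := by
    rw [UpperHalfPlane.σ, if_pos]
    simp
  have h1 : (frickeMF F : ℍ → ℂ) ∣[k] ModularForm.heckeMatrix p j
      = ((p : ℂ) ^ (k - 2)) • ((F : ℍ → ℂ) ∣[k] (ModularGroup.S * ModularGroup.T ^ (j : ℤ))) := by
    rw [coe_frickeMF, ← SlashAction.slash_mul, frickeMatrix_mul_heckeMatrix,
      SlashAction.slash_mul, slash_scalarGL, ModularForm.smul_slash, hσ]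
    simp only [ContinuousAlgEquiv.refl_apply, Complex.ofReal_natCast]
    rfl
  rw [h1, smul_smul, ← zpow_add₀ hp, show 2 - k + (k - 2) = 0 by ring, zpow_zero, one_smul]


/-! ## Section C: the trace to level one -/

/-- The trace of `F` to level one. -/
noncomputable def traceMF (F : ModularForm (lvl p) k) : ModularForm 𝒮ℒ k :=
  ModularForm.trace 𝒮ℒ F

theorem quotientFunc_cosetEquiv_none (F : ModularForm (lvl p) k) :
    quotientFunc (ℋ := 𝒮ℒ) F (cosetEquiv p none) = F := by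
  rw [cosetEquiv_apply, quotientFunc_mkQ]
  simp [rep]

theorem quotientFunc_cosetEquiv_some (F : ModularForm (lvl p) k) (j : Fin p) :
    quotientFunc (ℋ := 𝒮ℒ) F (cosetEquiv p (some j))
      = (F : ℍ → ℂ) ∣[k] (ModularGroup.S * ModularGroup.T ^ ((j : ℕ) : ℤ)) := by
  rw [cosetEquiv_apply, quotientFunc_mkQ]
  simp [rep]

/-- The trace formula: `Tr F = F + p ^ (2 - k) • U_p (F ∣[k] W_p)`. -/
theorem coe_traceMF (F : ModularForm (lvl p) k) :
    (traceMF F : ℍ → ℂ)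
      = (F : ℍ → ℂ) + ((p : ℂ) ^ (2 - k)) • ModularForm.heckeU k p (frickeMF F : ℍ → ℂ) := by
  rw [traceMF, ModularForm.coe_trace]
  let _ : Fintype (CosetSp p) := Fintype.ofFinite _
  have hsum : (∑ q : CosetSp p, quotientFunc (ℋ := 𝒮ℒ) F q)
      = ∑ x : Option (Fin p), quotientFunc (ℋ := 𝒮ℒ) F (cosetEquiv p x) :=
    (Equiv.sum_comp (cosetEquiv p) _).symm
  rw [hsum, Fintype.sum_option, quotientFunc_cosetEquiv_none]
  congr 1
  rw [ModularForm.heckeU_def, Finset.smul_sum, ← Fin.sum_univ_eq_sum_range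
    (fun j => ((p : ℂ) ^ (2 - k)) • ((frickeMF F : ℍ → ℂ) ∣[k] ModularForm.heckeMatrix p j))]
  refine Finset.sum_congr rfl fun j _ => ?_
  rw [quotientFunc_cosetEquiv_some, slash_ST_eq]


/-! ## Section D: `q`-expansions -/

/-- The operator `U_p` on power series: `(U_p f)_n = f_{n p}`. -/
noncomputable def Uop {R : Type*} [Semiring R] (p : ℕ) (f : PowerSeries R) : PowerSeries R :=
  PowerSeries.mk fun n => PowerSeries.coeff (n * p) f

@[simp] theorem coeff_Uop {R : Type*} [Semiring R] (p : ℕ) (f : PowerSeries R) (n : ℕ) :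
    PowerSeries.coeff n (Uop p f) = PowerSeries.coeff (n * p) f := by
  simp [Uop]

theorem Uop_map {R S : Type*} [Semiring R] [Semiring S] (φ : R →+* S) (p : ℕ)
    (f : PowerSeries R) : Uop p (f.map φ) = (Uop p f).map φ := by
  ext n; simp

theorem Uop_add {R : Type*} [Semiring R] (p : ℕ) (f g : PowerSeries R) :
    Uop p (f + g) = Uop p f + Uop p g := by
  ext n; simp

theorem Uop_neg {R : Type*} [Ring R] (p : ℕ) (f : PowerSeries R) :
    Uop p (-f) = -Uop p f := by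
  ext n; simp

theorem Uop_smul {R : Type*} [Semiring R] (p : ℕ) (c : R) (f : PowerSeries R) :
    Uop p (c • f) = c • Uop p f := by
  ext n; simp

theorem Uop_C_mul {R : Type*} [Semiring R] (p : ℕ) (c : R) (f : PowerSeries R) :
    Uop p (PowerSeries.C c * f) = PowerSeries.C c * Uop p f := by
  ext n; simp

theorem constantCoeff_Uop {R : Type*} [Semiring R] (p : ℕ) (f : PowerSeries R) :
    PowerSeries.constantCoeff (Uop p f) = PowerSeries.constantCoeff f := by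
  rw [← PowerSeries.coeff_zero_eq_constantCoeff_apply, coeff_Uop, zero_mul,
    PowerSeries.coeff_zero_eq_constantCoeff_apply]

omit [Fact p.Prime] in
theorem one_mem_strictPeriods_lvl : (1 : ℝ) ∈ (lvl p).strictPeriods :=
  CongruenceSubgroup.one_mem_strictPeriods_Gamma0 p

/-- The `q`-expansion of `U_p F` (prelude lemma `qCoeff_heckeU` in power-series form). -/
theorem qExpansion_heckeU (F : ModularForm (lvl p) k) :
    qExpansion 1 (ModularForm.heckeU k p (F : ℍ → ℂ)) = Uop p (qExpansion 1 F) := by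
  ext n
  have := ModularFormClass.qCoeff_heckeU F one_mem_strictPeriods_lvl
    (Fact.out : p.Prime).ne_zero n
  simpa [ModularFormClass.qCoeff, ModularForm.coeffHeckeU] using this

/-- The `q`-expansion of the trace: `Tr F = F + p ^ (2 - k) U_p (F ∣[k] W_p)`. -/
theorem qExpansion_traceMF (F : ModularForm (lvl p) k) :
    qExpansion 1 (traceMF F)
      = qExpansion 1 F + ((p : ℂ) ^ (2 - k)) • Uop p (qExpansion 1 (frickeMF F)) := by
  have hU : ModularForm.heckeU k p (frickeMF F : ℍ → ℂ)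
      = (ModularForm.heckeULin k (dvd_refl p) (frickeMF F) : ℍ → ℂ) := rfl
  have hsm : ((p : ℂ) ^ (2 - k)) • (ModularForm.heckeULin k (dvd_refl p) (frickeMF F) : ℍ → ℂ)
      = ((((p : ℂ) ^ (2 - k)) • ModularForm.heckeULin k (dvd_refl p) (frickeMF F) :
          ModularForm (lvl p) k) : ℍ → ℂ) := rfl
  rw [coe_traceMF, hU, hsm, ModularForm.qExpansion_add one_pos one_mem_strictPeriods_lvl, ← hsm,
    ModularForm.qExpansion_smul one_pos one_mem_strictPeriods_lvl, ← hU, qExpansion_heckeU]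


/-! ## Section E: weight two, `G ∣[2] W_p = - U_p G` -/

theorem traceMF_two (G : ModularForm (lvl p) 2) : traceMF G = 0 :=
  rank_zero_iff_forall_zero.mp ModularForm.levelOne_weight_two_rank_zero _

theorem coe_eq_neg_heckeU_frickeMF (G : ModularForm (lvl p) 2) :
    (G : ℍ → ℂ) = - ModularForm.heckeU 2 p (frickeMF G : ℍ → ℂ) := by
  have h := coe_traceMF G
  rw [traceMF_two, FunLike.coe_zero, sub_self, zpow_zero, one_smul] at h
  exact eq_neg_of_add_eq_zero_left h.symm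

theorem frickeMF_frickeMF_two (G : ModularForm (lvl p) 2) : frickeMF (frickeMF G) = G := by
  apply DFunLike.coe_injective
  rw [frickeMF_frickeMF, sub_self, zpow_zero, one_smul]

/-- Weight two: `G ∣[2] W_p = - U_p G`. -/
theorem coe_frickeMF_two (G : ModularForm (lvl p) 2) :
    (frickeMF G : ℍ → ℂ) = - ModularForm.heckeU 2 p (G : ℍ → ℂ) := by
  have h := coe_eq_neg_heckeU_frickeMF (frickeMF G)
  rwa [frickeMF_frickeMF_two] at h

/-- `(h1)`, first half: the `q`-expansion of `G ∣[2] W_p` is `- U_p g`. -/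
theorem qExpansion_frickeMF_two (G : ModularForm (lvl p) 2) :
    qExpansion 1 (frickeMF G) = - Uop p (qExpansion 1 G) := by
  have hU : ModularForm.heckeU 2 p (G : ℍ → ℂ)
      = (ModularForm.heckeULin 2 (dvd_refl p) G : ℍ → ℂ) := rfl
  rw [coe_frickeMF_two, hU, ModularForm.qExpansion_neg one_pos one_mem_strictPeriods_lvl, ← hU,
    qExpansion_heckeU]

/-- `(h1)`, second half: `U_p (U_p g) = g` on `M₂(Γ₀(p))`. -/
theorem Uop_Uop_qExpansion_two (G : ModularForm (lvl p) 2) :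
    Uop p (Uop p (qExpansion 1 G)) = qExpansion 1 G := by
  have h1 := qExpansion_frickeMF_two (frickeMF G)
  rw [frickeMF_frickeMF_two, qExpansion_frickeMF_two, Uop_neg, neg_neg] at h1
  exact h1.symm

end Fermat.Agent.S16.Conj.Trace
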