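/-
T16 / package C (helper23): algebraic compatibilities of the conjugates `conj k p G x`
(sums, scalar multiples, products, powers, level-one factors).  Mathlib + `Conj/Defs` only.

EXPORTS (namespace `Fermat.Agent.S16.Conj`): `conj_add`, `conj_sub`, `conj_neg`, `conj_smul`,
`conj_mul`, `conj_pow`, `conj_of_SL_invariant`, `conj_coe_levelOne`, `conj_cube_sub_smul`
(the `U3b` shape `Φ = c₁ • (G³ - c₂ • E)`).
-/
import Fermat.Agent.S16.Conj.Defs

set_option autoImplicit false

open UpperHalfPlane ModularForm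
open scoped MatrixGroups ModularForm

namespace Fermat.Agent.S16.Conj

variable (p : ℕ)

lemma conj_add (k : ℤ) (F G : ℍ → ℂ) (x : Idx p) :
    conj k p (F + G) x = conj k p F x + conj k p G x := by
  simp only [conj_def, SlashAction.add_slash]

lemma conj_neg (k : ℤ) (F : ℍ → ℂ) (x : Idx p) : conj k p (-F) x = -conj k p F x := by
  simp only [conj_def, SlashAction.neg_slash]

lemma conj_sub (k : ℤ) (F G : ℍ → ℂ) (x : Idx p) :
    conj k p (F - G) x = conj k p F x - conj k p G x := by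
  rw [sub_eq_add_neg, conj_add, conj_neg, sub_eq_add_neg]

lemma conj_smul (k : ℤ) (c : ℂ) (F : ℍ → ℂ) (x : Idx p) :
    conj k p (c • F) x = c • conj k p F x := by
  simp only [conj_def, ModularForm.SL_smul_slash]

lemma conj_mul (k₁ k₂ : ℤ) (F G : ℍ → ℂ) (x : Idx p) :
    conj (k₁ + k₂) p (F * G) x = conj k₁ p F x * conj k₂ p G x := by
  simp only [conj_def, ModularForm.mul_slash_SL2]

lemma conj_one (x : Idx p) : conj 0 p (1 : ℍ → ℂ) x = 1 := by
  simp only [conj_def]
  exact ModularForm.is_invariant_one _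

lemma conj_pow (k : ℤ) (F : ℍ → ℂ) (n : ℕ) (x : Idx p) :
    conj ((n : ℤ) * k) p (F ^ n) x = conj k p F x ^ n := by
  induction n with
  | zero => simpa using conj_one p x
  | succ n ih =>
    rw [pow_succ, pow_succ, ← ih, ← conj_mul]
    congr 1
    push_cast
    ring

/-- a function invariant under all of `SL(2,ℤ)` (e.g. a level-one form) is its own conjugate. -/
lemma conj_of_SL_invariant (k : ℤ) {E : ℍ → ℂ} (hE : ∀ γ : SL(2, ℤ), E ∣[k] γ = E) (x : Idx p) :
    conj k p E x = E := by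
  rw [conj_def, hE]

lemma conj_coe_levelOne {k : ℤ} (E : ModularForm 𝒮ℒ k) (x : Idx p) :
    conj k p (E : ℍ → ℂ) x = E := by
  apply conj_of_SL_invariant
  intro γ
  rw [ModularForm.SL_slash]
  exact SlashInvariantForm.slash_action_eqn E _ ⟨γ, rfl⟩

/-- the `U3b` shape: conjugates of `Φ = c₁ • (G ^ 3 - c₂ • E)` (`G` of weight `k`, `E` of level one
and weight `3 k`). -/
lemma conj_cube_sub_smul (k : ℤ) (c₁ c₂ : ℂ) (G : ℍ → ℂ) (E : ModularForm 𝒮ℒ (3 * k))
    (x : Idx p) :
    conj (3 * k) p (c₁ • (G ^ 3 - c₂ • (E : ℍ → ℂ))) x =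
      c₁ • (conj k p G x ^ 3 - c₂ • (E : ℍ → ℂ)) := by
  rw [conj_smul, conj_sub, conj_smul, conj_coe_levelOne]
  have := conj_pow p k G 3 x
  rw [show ((3 : ℕ) : ℤ) * k = 3 * k by norm_num] at this
  rw [this]

end Fermat.Agent.S16.Conj
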