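/-
T16 / package C (conjugates), owner helper23: the interface statement **(S)** in its unbundled
form, plus a summary of where the pieces of package C live.

* `Conj/Defs.lean`      (helper23)  `Idx p`, `rep p`, `conj k p G`
* `Conj/SymCoset.lean`  (helper23)  coset representatives, `quotEquiv`, `normForm G i : ModularForm 𝒮ℒ (i * k)`,
                                    `coe_normForm : ⇑(normForm G i) = qcEsymm p k G i`, `isMF_qcEsymm`
* `Conj/QCirc.lean`, `Conj/CharPoly.lean`, `Conj/NormQExp.lean` (helper20)  `q`-expansion of `qcEsymm`,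
                                    integrality and congruence model (`qcEsymmModel`)
* `Conj/Expand.lean`    (helper71)  permutation law, `q^(1/p)`-expansions of every conjugate
* `Conj/Trace.lean`     (helper16)  Fricke involution, trace formula, weight two: `G|W = -U_p G`
-/
import Fermat.Agent.S16.Conj.SymCoset

set_option autoImplicit false

open UpperHalfPlane ModularForm CongruenceSubgroup
open scoped MatrixGroups ModularForm Manifold

namespace Fermat.Agent.S16.Conj

/-- **(S)**, unbundled: for `G` (the underlying function of) a modular form of weight `k` on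
`Γ₀(p)`, the `j`-th elementary symmetric function of its `p + 1` conjugates is (the underlying
function of) a level-one modular form of weight `j * k`. -/
theorem isMF_qcEsymm_of_isMF {p : ℕ} [Fact p.Prime] {k : ℤ} {G : ℍ → ℂ}
    (hG : S23.IsMF (S23.G0 p) k G) (j : ℕ) :
    S23.IsMF 𝒮ℒ ((j : ℤ) * k) (qcEsymm p k G j) := by
  obtain ⟨F, rfl⟩ := hG
  exact isMF_qcEsymm F j

/-- the same with the weight written `k * j`. -/
theorem isMF_qcEsymm_of_isMF' {p : ℕ} [Fact p.Prime] {k : ℤ} {G : ℍ → ℂ}
    (hG : S23.IsMF (S23.G0 p) k G) (j : ℕ) :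
    S23.IsMF 𝒮ℒ (k * (j : ℤ)) (qcEsymm p k G j) :=
  (isMF_qcEsymm_of_isMF hG j).congr_weight (mul_comm _ _)

/-- the conjugates are permuted by `SL(2,ℤ)`, in terms of the representatives only:
`rep x * γ = δ * rep y` with `δ ∈ Γ₀(p)`. -/
theorem exists_rep_mul_eq {p : ℕ} [Fact p.Prime] (x : Idx p) (γ : SL(2, ℤ)) :
    ∃ y : Idx p, ∃ δ ∈ Gamma0 p, rep p x * γ = δ * rep p y := by
  obtain ⟨y, hy⟩ := exists_rep_mul_mem (p := p) ((rep p x * γ)⁻¹)
  refine ⟨y, (rep p y * (rep p x * γ)⁻¹)⁻¹, inv_mem hy, ?_⟩
  group

end Fermat.Agent.S16.Conj
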