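import Fermat.Agent.S16.Conj.TraceId
import Fermat.Agent.S16.TraceCases.Key
import Fermat.Agent.S16.TraceCases.E8

/-!
# T16 / package C, file `Conj/TraceData.lean` (helper16)

Bridge to the `TraceCases` package (helper32): a form `G ∈ M₂(Γ₀(p))` with integral
`q`-expansion `g` yields `TraceCases.TraceData p g (-(U_p g))`.
-/

set_option autoImplicit false

open UpperHalfPlane ModularForm SlashInvariantForm
open scoped MatrixGroups ModularForm Manifold

namespace Fermat.Agent.S16.Conj.Trace

open Matrix.SpecialLinearGroup CongruenceSubgroup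

theorem Uop_eq_traceCases {R : Type*} [Semiring R] (p : ℕ) (f : PowerSeries R) :
    Uop p f = Fermat.Agent.S16.TraceCases.Uop p f := by
  ext n
  rw [coeff_Uop, Fermat.Agent.S16.TraceCases.Uop, PowerSeries.coeff_mk, mul_comm]

variable {p : ℕ} [Fact p.Prime]

/-- The trace identities in the `PowerSeries ℤ` interface of `TraceCases`. -/
theorem traceData_of_modularForm (G : ModularForm (lvl p) 2) (g : PowerSeries ℤ)
    (hg : qExpansion 1 G = g.map (Int.castRingHom ℂ)) :
    Fermat.Agent.S16.TraceCases.TraceData p g (-(Fermat.Agent.S16.TraceCases.Uop p g)) := by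
  have hinj : Function.Injective (PowerSeries.map (Int.castRingHom ℂ)) :=
    PowerSeries.map_injective _ Int.cast_injective
  set gs : PowerSeries ℤ := -(Fermat.Agent.S16.TraceCases.Uop p g) with hgs
  have hgsC : qExpansion 1 (frickeMF G) = gs.map (Int.castRingHom ℂ) := by
    rw [qExpansion_frickeMF_two, hg, hgs, map_neg, ← Uop_eq_traceCases, Uop_map]
  have hc0 : PowerSeries.coeff 0 (qExpansion 1 G) = ((PowerSeries.coeff 0 g : ℤ) : ℂ) := by
    rw [hg, PowerSeries.coeff_map]; rfl
  have hE4 := Fermat.Agent.S16.TraceCases.qExpansion_E4_eq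
  refine ⟨?_, ?_, ⟨((p : ℤ) + 1) * PowerSeries.coeff 0 g ^ 2, ?_⟩,
    ⟨((p : ℤ) + 1) * PowerSeries.coeff 0 g ^ 2, ?_⟩⟩
  · apply hinj
    rw [← Uop_eq_traceCases, ← Uop_map, ← hgsC, qExpansion_frickeMF_two, Uop_neg,
      Uop_Uop_qExpansion_two, hg, map_neg]
  · rw [hgs, neg_neg]
  · apply hinj
    have h := h2 G
    rw [hc0, hgsC, hg, hE4] at h
    rw [← Uop_eq_traceCases, map_add, map_mul, map_mul, ← Uop_map, map_pow, map_pow,
      PowerSeries.map_C, PowerSeries.map_C]
    rw [← PowerSeries.smul_eq_C_mul, ← PowerSeries.smul_eq_C_mul]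
    convert h using 2
    · simp
    · simp only [eq_intCast]; push_cast; ring
  · apply hinj
    have h := h2' G
    rw [hc0, hgsC, hg, hE4] at h
    rw [← Uop_eq_traceCases, map_add, map_mul, map_mul, ← Uop_map, map_pow, map_pow,
      PowerSeries.map_C, PowerSeries.map_C]
    rw [← PowerSeries.smul_eq_C_mul, ← PowerSeries.smul_eq_C_mul]
    convert h using 2
    · simp
    · simp only [eq_intCast]; push_cast; ring

end Fermat.Agent.S16.Conj.Trace
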