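import Fermat.Agent.S16.Conj.TraceData
import Fermat.Agent.S16.LevelOneInt

/-!
# T16 / package C, file `Conj/TraceData6.lean` (helper16)

The weight 6 trace identity `(I3)` in `PowerSeries ℤ` form, in the shape `(h3)` consumed by
`UP/AbstractInt6.lean` (`false_of_trace6_int`, helper38).
-/

set_option autoImplicit false

open UpperHalfPlane ModularForm SlashInvariantForm
open scoped MatrixGroups ModularForm Manifold

namespace Fermat.Agent.S16.Conj.Trace

open Matrix.SpecialLinearGroup CongruenceSubgroup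
open Fermat.Agent.S16.L1h67

variable {p : ℕ} [Fact p.Prime]

/-- `(I3)` over `ℤ`: `p² g³ + U_p (gs³) = (p² - 1) c₀³ E₆` with `gs = - U_p g`. -/
theorem I3_int (G : ModularForm (lvl p) 2) (g : PowerSeries ℤ)
    (hg : qExpansion 1 G = g.map (Int.castRingHom ℂ)) :
    PowerSeries.C (((p : ℤ)) ^ 2) * g ^ 3
        + Fermat.Agent.S16.TraceCases.Uop p ((-(Fermat.Agent.S16.TraceCases.Uop p g)) ^ 3)
      = PowerSeries.C ((((p : ℤ)) ^ 2 - 1) * PowerSeries.coeff 0 g ^ 3) * e6Z := by
  have hinj : Function.Injective (PowerSeries.map (Int.castRingHom ℂ)) :=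
    PowerSeries.map_injective _ Int.cast_injective
  set gs : PowerSeries ℤ := -(Fermat.Agent.S16.TraceCases.Uop p g) with hgs
  have hgsC : qExpansion 1 (frickeMF G) = gs.map (Int.castRingHom ℂ) := by
    rw [qExpansion_frickeMF_two, hg, hgs, map_neg, ← Uop_eq_traceCases, Uop_map]
  have hc0 : PowerSeries.coeff 0 (qExpansion 1 G) = ((PowerSeries.coeff 0 g : ℤ) : ℂ) := by
    rw [hg, PowerSeries.coeff_map]; rfl
  have h := I3 G
  rw [hc0, hgsC, hg, qExpansion_E6, ← map_pow, ← map_pow, Uop_map] at h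
  ext n
  have h' := congrArg (PowerSeries.coeff n) h
  rw [map_add, PowerSeries.coeff_smul, PowerSeries.coeff_smul, PowerSeries.coeff_map,
    PowerSeries.coeff_map, PowerSeries.coeff_map] at h'
  rw [map_add, PowerSeries.coeff_C_mul, PowerSeries.coeff_C_mul, ← Uop_eq_traceCases]
  apply Int.cast_injective (α := ℂ)
  simp only [smul_eq_mul, eq_intCast] at h'
  push_cast
  exact h'

/-- The hypotheses `(h1)`, `(hE60)`, `(hE61)`, `(h3)` of `UP.false_of_trace6_int`, for
`gs := - U_p g`, `E6 := e6Z`, `lam := (p² - 1) c₀³`. -/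
theorem trace6_int (G : ModularForm (lvl p) 2) (g : PowerSeries ℤ)
    (hg : qExpansion 1 G = g.map (Int.castRingHom ℂ)) :
    (∀ n, PowerSeries.coeff n (-(Fermat.Agent.S16.TraceCases.Uop p g))
        = - PowerSeries.coeff (p * n) g) ∧
    PowerSeries.coeff 0 e6Z = 1 ∧ PowerSeries.coeff 1 e6Z = -504 ∧
    ∀ n, ((p : ℤ)) ^ 2 * PowerSeries.coeff n (g ^ 3)
        + PowerSeries.coeff (p * n) ((-(Fermat.Agent.S16.TraceCases.Uop p g)) ^ 3)
      = ((((p : ℤ)) ^ 2 - 1) * PowerSeries.coeff 0 g ^ 3) * PowerSeries.coeff n e6Z := by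
  refine ⟨fun n => ?_, ?_, ?_, fun n => ?_⟩
  · rw [map_neg, Fermat.Agent.S16.TraceCases.coeff_Uop]
  · rw [coeff_e6Z, if_pos rfl]
  · rw [coeff_e6Z, if_neg one_ne_zero]; simp
  · have h := congrArg (PowerSeries.coeff n) (I3_int G g hg)
    rw [map_add, PowerSeries.coeff_C_mul, PowerSeries.coeff_C_mul,
      Fermat.Agent.S16.TraceCases.coeff_Uop] at h
    exact h

end Fermat.Agent.S16.Conj.Trace
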