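import Fermat.Agent.S16.Conj.Trace

/-!
# T16 / package C, file `Conj/TraceId.lean` (helper16)

The trace identities `(h2)` (weight 4) and `(I3)` (weight 6) for `G ∈ M₂(Γ₀(p))`:
with `g = qExpansion 1 G`, `gs = qExpansion 1 (G ∣[2] W_p) = - U_p g`, `c₀ = a₀(g)`:

* `p g² + U_p (gs²) = (p + 1) c₀² E₄`, `p gs² + U_p (g²) = (p + 1) c₀² E₄`;
* `p² g³ + U_p (gs³) = (p² - 1) c₀³ E₆`, `p² gs³ + U_p (g³) = -(p² - 1) c₀³ E₆`.
-/

set_option autoImplicit false

open UpperHalfPlane ModularForm SlashInvariantForm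
open scoped MatrixGroups ModularForm Manifold

namespace Fermat.Agent.S16.Conj.Trace

open Matrix.SpecialLinearGroup CongruenceSubgroup EisensteinSeries

/-! ## Level one: one-dimensional spaces -/

theorem qExpansion_eq_coeff_zero_smul {k : ℤ} (hrank : Module.rank ℂ (ModularForm 𝒮ℒ k) = 1)
    (E : ModularForm 𝒮ℒ k) (hE : PowerSeries.coeff 0 (qExpansion 1 E) = 1)
    (f : ModularForm 𝒮ℒ k) :
    qExpansion 1 f = (PowerSeries.coeff 0 (qExpansion 1 f)) • qExpansion 1 E := by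
  have hE0 : E ≠ 0 := by
    rintro rfl
    rw [FunLike.coe_zero, qExpansion_zero] at hE
    simp at hE
  have hfin : Module.finrank ℂ (ModularForm 𝒮ℒ k) = 1 :=
    Module.finrank_eq_of_rank_eq (by simpa using hrank)
  obtain ⟨c, rfl⟩ := (finrank_eq_one_iff_of_nonzero' E hE0).mp hfin f
  have h1 : qExpansion 1 ((c • E : ModularForm 𝒮ℒ k) : ℍ → ℂ) = c • qExpansion 1 E :=
    ModularForm.qExpansion_smul one_pos one_mem_strictPeriods_SL c E
  rw [h1, PowerSeries.coeff_smul, hE, smul_eq_mul, mul_one]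

theorem qExpansion_weight_four (f : ModularForm 𝒮ℒ 4) :
    qExpansion 1 f = (PowerSeries.coeff 0 (qExpansion 1 f)) • qExpansion 1 E₄ :=
  qExpansion_eq_coeff_zero_smul ModularForm.levelOne_weight_four_rank_one E₄
    (E_qExpansion_coeff_zero (by norm_num) ⟨2, rfl⟩) f

theorem qExpansion_weight_six (f : ModularForm 𝒮ℒ 6) :
    qExpansion 1 f = (PowerSeries.coeff 0 (qExpansion 1 f)) • qExpansion 1 E₆ :=
  qExpansion_eq_coeff_zero_smul ModularForm.levelOne_weight_six_rank_one E₆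
    (E_qExpansion_coeff_zero (by norm_num) ⟨3, rfl⟩) f


/-! ## Fricke involution and products -/

variable {p : ℕ} [Fact p.Prime]

theorem p_ne_zero_C : (p : ℂ) ≠ 0 := Nat.cast_ne_zero.mpr (Fact.out : p.Prime).ne_zero

/-- `(F H) ∣ W_p = p • (F ∣ W_p) (H ∣ W_p)` (Mathlib normalisation of the slash action). -/
theorem coe_frickeMF_mul {a b : ℤ} (F : ModularForm (lvl p) a) (H : ModularForm (lvl p) b) :
    (frickeMF (F.mul H) : ℍ → ℂ)
      = (p : ℂ) • ((frickeMF F : ℍ → ℂ) * (frickeMF H : ℍ → ℂ)) := by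
  rw [coe_frickeMF, ModularForm.coe_mul, ModularForm.mul_slash, det_frickeMatrix,
    coe_frickeMF, coe_frickeMF]
  ext τ
  simp [abs_of_nonneg (Nat.cast_nonneg p : (0 : ℝ) ≤ p)]

theorem qExpansion_frickeMF_mul {a b : ℤ} (F : ModularForm (lvl p) a)
    (H : ModularForm (lvl p) b) :
    qExpansion 1 (frickeMF (F.mul H))
      = (p : ℂ) • (qExpansion 1 (frickeMF F) * qExpansion 1 (frickeMF H)) := by
  have h1 : ((frickeMF F : ℍ → ℂ) * (frickeMF H : ℍ → ℂ))
      = (((frickeMF F).mul (frickeMF H) : ModularForm (lvl p) (a + b)) : ℍ → ℂ) := rfl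
  rw [coe_frickeMF_mul, h1, ModularForm.qExpansion_smul one_pos one_mem_strictPeriods_lvl,
    ModularForm.qExpansion_mul one_pos one_mem_strictPeriods_lvl]


/-! ## The weight 4 identity `(h2)` -/

theorem coeff_zero_frickeMF_two (G : ModularForm (lvl p) 2) :
    PowerSeries.coeff 0 (qExpansion 1 (frickeMF G)) = - PowerSeries.coeff 0 (qExpansion 1 G) := by
  rw [qExpansion_frickeMF_two, map_neg, coeff_Uop, zero_mul]

/-- The `q`-expansion of `Tr (G²)`, `G ∈ M₂(Γ₀(p))`: `g² + p⁻¹ U_p (gs²)`. -/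
theorem qExpansion_traceMF_sq (G : ModularForm (lvl p) 2) :
    qExpansion 1 (traceMF (G.mul G))
      = qExpansion 1 G ^ 2 + ((p : ℂ)⁻¹) • Uop p (qExpansion 1 (frickeMF G) ^ 2) := by
  have hp := p_ne_zero_C (p := p)
  rw [qExpansion_traceMF, qExpansion_frickeMF_mul,
    ModularForm.qExpansion_mul one_pos one_mem_strictPeriods_lvl, Uop_smul, smul_smul, ← sq, ← sq]
  congr 2
  rw [show (2 : ℤ) - (2 + 2) = -2 by norm_num, zpow_neg, zpow_ofNat]
  field_simp

/-- `(h2)`: `p g² + U_p (gs²) = (p + 1) c₀² E₄`. -/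
theorem h2 (G : ModularForm (lvl p) 2) :
    (p : ℂ) • qExpansion 1 G ^ 2 + Uop p (qExpansion 1 (frickeMF G) ^ 2)
      = (((p : ℂ) + 1) * PowerSeries.coeff 0 (qExpansion 1 G) ^ 2) • qExpansion 1 E₄ := by
  have hp := p_ne_zero_C (p := p)
  have h4 := qExpansion_weight_four
    (ModularForm.mcast (show (2 : ℤ) + 2 = 4 by norm_num) (traceMF (G.mul G)))
  rw [ModularForm.qExpansion_mcast, qExpansion_traceMF_sq] at h4
  have hc : PowerSeries.coeff 0 (qExpansion 1 G ^ 2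
      + ((p : ℂ)⁻¹) • Uop p (qExpansion 1 (frickeMF G) ^ 2))
      = (1 + (p : ℂ)⁻¹) * PowerSeries.coeff 0 (qExpansion 1 G) ^ 2 := by
    rw [map_add, PowerSeries.coeff_smul, coeff_Uop, zero_mul,
      PowerSeries.coeff_zero_eq_constantCoeff_apply, PowerSeries.coeff_zero_eq_constantCoeff_apply,
      map_pow, map_pow, ← PowerSeries.coeff_zero_eq_constantCoeff_apply,
      ← PowerSeries.coeff_zero_eq_constantCoeff_apply, coeff_zero_frickeMF_two]
    ring
  rw [hc] at h4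
  have h5 := congrArg (fun f => (p : ℂ) • f) h4
  simp only [smul_add, smul_smul] at h5
  rw [mul_inv_cancel₀ hp, one_smul] at h5
  rw [h5]
  congr 1
  field_simp


/-- `(h2)`, the `W_p`-twin: `p gs² + U_p (g²) = (p + 1) c₀² E₄`. -/
theorem h2' (G : ModularForm (lvl p) 2) :
    (p : ℂ) • qExpansion 1 (frickeMF G) ^ 2 + Uop p (qExpansion 1 G ^ 2)
      = (((p : ℂ) + 1) * PowerSeries.coeff 0 (qExpansion 1 G) ^ 2) • qExpansion 1 E₄ := by
  have h := h2 (frickeMF G)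
  rwa [frickeMF_frickeMF_two, coeff_zero_frickeMF_two, neg_sq] at h

/-! ## The weight 6 identity `(I3)` -/

/-- The `q`-expansion of `Tr (G³)`, `G ∈ M₂(Γ₀(p))`: `g³ + p⁻² U_p (gs³)`. -/
theorem qExpansion_traceMF_cube (G : ModularForm (lvl p) 2) :
    qExpansion 1 (traceMF ((G.mul G).mul G))
      = qExpansion 1 G ^ 3 + (((p : ℂ) ^ 2)⁻¹) • Uop p (qExpansion 1 (frickeMF G) ^ 3) := by
  have hp := p_ne_zero_C (p := p)
  rw [qExpansion_traceMF, qExpansion_frickeMF_mul, qExpansion_frickeMF_mul,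
    ModularForm.qExpansion_mul one_pos one_mem_strictPeriods_lvl,
    ModularForm.qExpansion_mul one_pos one_mem_strictPeriods_lvl, smul_mul_assoc, Uop_smul,
    Uop_smul, smul_smul, smul_smul]
  have e1 : qExpansion 1 G * qExpansion 1 G * qExpansion 1 G = qExpansion 1 G ^ 3 := by ring
  have e2 : qExpansion 1 (frickeMF G) * qExpansion 1 (frickeMF G) * qExpansion 1 (frickeMF G)
      = qExpansion 1 (frickeMF G) ^ 3 := by ring
  rw [e1, e2]
  congr 2
  rw [show (2 : ℤ) - (2 + 2 + 2) = -4 by norm_num, zpow_neg, zpow_ofNat]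
  field_simp

/-- `(I3)`: `p² g³ + U_p (gs³) = (p² - 1) c₀³ E₆`. -/
theorem I3 (G : ModularForm (lvl p) 2) :
    ((p : ℂ) ^ 2) • qExpansion 1 G ^ 3 + Uop p (qExpansion 1 (frickeMF G) ^ 3)
      = ((((p : ℂ) ^ 2) - 1) * PowerSeries.coeff 0 (qExpansion 1 G) ^ 3) • qExpansion 1 E₆ := by
  have hp := p_ne_zero_C (p := p)
  have hp2 : ((p : ℂ) ^ 2) ≠ 0 := pow_ne_zero 2 hp
  have h6 := qExpansion_weight_six
    (ModularForm.mcast (show (2 : ℤ) + 2 + 2 = 6 by norm_num) (traceMF ((G.mul G).mul G)))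
  rw [ModularForm.qExpansion_mcast, qExpansion_traceMF_cube] at h6
  have hc : PowerSeries.coeff 0 (qExpansion 1 G ^ 3
      + (((p : ℂ) ^ 2)⁻¹) • Uop p (qExpansion 1 (frickeMF G) ^ 3))
      = (1 - ((p : ℂ) ^ 2)⁻¹) * PowerSeries.coeff 0 (qExpansion 1 G) ^ 3 := by
    rw [map_add, PowerSeries.coeff_smul, coeff_Uop, zero_mul,
      PowerSeries.coeff_zero_eq_constantCoeff_apply, PowerSeries.coeff_zero_eq_constantCoeff_apply,
      map_pow, map_pow, ← PowerSeries.coeff_zero_eq_constantCoeff_apply,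
      ← PowerSeries.coeff_zero_eq_constantCoeff_apply, coeff_zero_frickeMF_two]
    ring
  rw [hc] at h6
  have h7 := congrArg (fun f => ((p : ℂ) ^ 2) • f) h6
  simp only [smul_add, smul_smul] at h7
  rw [mul_inv_cancel₀ hp2, one_smul] at h7
  rw [h7]
  congr 1
  field_simp

/-- `(I3)`, the `W_p`-twin: `p² gs³ + U_p (g³) = -(p² - 1) c₀³ E₆`. -/
theorem I3' (G : ModularForm (lvl p) 2) :
    ((p : ℂ) ^ 2) • qExpansion 1 (frickeMF G) ^ 3 + Uop p (qExpansion 1 G ^ 3)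
      = (-((((p : ℂ) ^ 2) - 1) * PowerSeries.coeff 0 (qExpansion 1 G) ^ 3)) • qExpansion 1 E₆ := by
  have h := I3 (frickeMF G)
  rw [frickeMF_frickeMF_two, coeff_zero_frickeMF_two] at h
  rw [h]
  congr 1
  ring

end Fermat.Agent.S16.Conj.Trace
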