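import Fermat.Agent.S16.Conj.NormQExp
import Fermat.Agent.S16.Conj.Expand

/-!
# T16 / piece C (helper20): the weight `2` one-call form

For `G : ModularForm (Gamma0 p) 2` with `q`-expansion coefficients `a n` in a subring `R ⊆ ℂ`
containing `1 / p`, the `q`-expansions of the level-one forms `normForm G i = e_i (conjugates of G)`
(helper23, `Conj/SymCoset.lean`) are the images of explicit power series over `R`, built from the
`a n` alone: at the cusp `0` one has `b_n = - a_{p n} / p` (helper71, `Conj/Expand.lean`).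

Exported (namespace `Fermat.Agent.S16.Conj`, `[Fact p.Prime]`, `G : ModularForm (Gamma0 p) 2`,
`R : Subring ℂ`, `hp : (p : ℂ)⁻¹ ∈ R`, `ha : ∀ n, (qExpansion 1 G).coeff n ∈ R`):
* `qcA R a ha : PowerSeries R := mk fun n => ⟨a n, ha n⟩`
* `qcB p R a ha hp i : PowerSeries R := mk fun l => -(⟨a (p * (i + l * p)), _⟩ * ⟨(p : ℂ)⁻¹, hp⟩)`
* `qcModelTwo G R hp ha i : PowerSeries R := qcEsymmModel p (qcA ..) (qcB ..) i`
* `map_qcModelTwo G R hp ha (hi : i ≤ p + 1) :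
    PowerSeries.map R.subtype (qcModelTwo G R hp ha i) = qExpansion 1 (normForm G i)`
* `coeff_qExpansion_normForm_two_mem G R hp ha (hi : i ≤ p + 1) n :
    (qExpansion 1 (normForm G i)).coeff n ∈ R`
* `map_qcModelTwo_of_eq_zero G R hp ha (φ : R →+* B) (hφ : ∀ n, 1 ≤ n → φ ⟨a n, ha n⟩ = 0)
    (hi : i ≤ p + 1) :
    PowerSeries.map φ (qcModelTwo G R hp ha i) =
      PowerSeries.C ((φ ⟨a 0, ha 0⟩ ::ₘ
        Multiset.replicate p (-(φ ⟨a 0, ha 0⟩ * φ ⟨(p : ℂ)⁻¹, hp⟩))).esymm i)`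
  i.e. `G ≡ c` modulo `ker φ` ⇒ `e_i (conjugates) ≡ esymm_i (c, -c/p, …, -c/p)`.
* ONE-CALL FORM `exists_mem_and_map_coeff_normForm_two G R hp ha φ hφ (hi : i ≤ p + 1) :
    ∃ hint : ∀ n, (qExpansion 1 (normForm G i)).coeff n ∈ R,
      φ ⟨_, hint 0⟩ = (φ ⟨a 0, ha 0⟩ ::ₘ replicate p (-(φ ⟨a 0, ha 0⟩ * φ ⟨(p:ℂ)⁻¹, hp⟩))).esymm i ∧
      ∀ n, 1 ≤ n → φ ⟨_, hint n⟩ = 0`
  (e.g. `R = Rl.Zl l`, `φ = Rl.red l` of `S16/LocalRing.lean`, `l ≠ p`).
-/

set_option autoImplicit false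

open UpperHalfPlane ModularForm CongruenceSubgroup
open scoped MatrixGroups ModularForm Manifold

namespace Fermat.Agent.S16.Conj

open Fermat.Agent.S20.Puiseux

/-- the power series over `R` with coefficients `a n` -/
noncomputable def qcA (R : Subring ℂ) (a : ℕ → ℂ) (ha : ∀ n, a n ∈ R) : PowerSeries R :=
  PowerSeries.mk fun n => ⟨a n, ha n⟩

/-- the `i`-th Puiseux component of the expansion at the cusp `0` in weight `2`:
`Σ_l (- a_{p (i + l p)} / p) q^l` -/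
noncomputable def qcB (p : ℕ) (R : Subring ℂ) (a : ℕ → ℂ) (ha : ∀ n, a n ∈ R)
    (hp : (p : ℂ)⁻¹ ∈ R) (i : ℕ) : PowerSeries R :=
  PowerSeries.mk fun l => -(⟨a (p * (i + l * p)), ha _⟩ * ⟨(p : ℂ)⁻¹, hp⟩)

variable {p : ℕ} [Fact p.Prime]

/-- the integral model of `qExpansion 1 (normForm G i)` in weight `2` -/
noncomputable def qcModelTwo (G : ModularForm (Gamma0 p) 2) (R : Subring ℂ) (hp : (p : ℂ)⁻¹ ∈ R)
    (ha : ∀ n, (qExpansion (1 : ℝ) G).coeff n ∈ R) (i : ℕ) : PowerSeries R :=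
  qcEsymmModel p (qcA R (fun n => (qExpansion (1 : ℝ) G).coeff n) ha)
    (qcB p R (fun n => (qExpansion (1 : ℝ) G).coeff n) ha hp) i

theorem map_qcModelTwo (G : ModularForm (Gamma0 p) 2) (R : Subring ℂ) (hp : (p : ℂ)⁻¹ ∈ R)
    (ha : ∀ n, (qExpansion (1 : ℝ) G).coeff n ∈ R) {i : ℕ} (hi : i ≤ p + 1) :
    PowerSeries.map R.subtype (qcModelTwo G R hp ha i) = qExpansion (1 : ℝ) (normForm G i) := by
  have : NeZero p := qc_neZero
  refine map_qcEsymmModel_eq_qExpansion_normForm G R.subtype _ _ ?_ ?_ hi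
  · ext n
    simp [qcA]
  · intro j _
    ext l
    have h := Expand.IsG0.coeff_qExpansion_slash_S (Expand.IsG0.of_modularForm G) (j + l * p)
    rw [coeff_comp]
    change _ = PowerSeries.coeff (j + l * p) (qExpansion (p : ℝ) (⇑G ∣[(2 : ℤ)] ModularGroup.S))
    rw [h]
    simp [qcB, div_eq_mul_inv]

theorem coeff_qExpansion_normForm_two_mem (G : ModularForm (Gamma0 p) 2) (R : Subring ℂ)
    (hp : (p : ℂ)⁻¹ ∈ R) (ha : ∀ n, (qExpansion (1 : ℝ) G).coeff n ∈ R) {i : ℕ}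
    (hi : i ≤ p + 1) (n : ℕ) : (qExpansion (1 : ℝ) (normForm G i)).coeff n ∈ R := by
  rw [← map_qcModelTwo G R hp ha hi, PowerSeries.coeff_map]
  exact Subtype.property _

theorem map_qcModelTwo_of_eq_zero (G : ModularForm (Gamma0 p) 2) (R : Subring ℂ)
    (hp : (p : ℂ)⁻¹ ∈ R) (ha : ∀ n, (qExpansion (1 : ℝ) G).coeff n ∈ R) {B : Type*} [CommRing B]
    (φ : R →+* B) (hφ : ∀ n, 1 ≤ n → φ ⟨(qExpansion (1 : ℝ) G).coeff n, ha n⟩ = 0) {i : ℕ}
    (hi : i ≤ p + 1) :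
    PowerSeries.map φ (qcModelTwo G R hp ha i) =
      PowerSeries.C ((φ ⟨(qExpansion (1 : ℝ) G).coeff 0, ha 0⟩ ::ₘ
        Multiset.replicate p (-(φ ⟨(qExpansion (1 : ℝ) G).coeff 0, ha 0⟩ *
          φ ⟨(p : ℂ)⁻¹, hp⟩))).esymm i) := by
  have hp0 : 0 < p := (Fact.out : p.Prime).pos
  set a : ℕ → ℂ := fun n => (qExpansion (1 : ℝ) G).coeff n with ha_def
  have h1 : PowerSeries.map φ (qcA R a ha) = PowerSeries.C (φ ⟨a 0, ha 0⟩) := by
    ext n
    rw [PowerSeries.coeff_map, PowerSeries.coeff_C]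
    rcases Nat.eq_zero_or_pos n with rfl | hn
    · simp [qcA]
    · rw [if_neg hn.ne']
      simpa [qcA] using hφ n hn
  have h2 : ∀ j, 0 < j → j < p → PowerSeries.map φ (qcB p R a ha hp j) = 0 := by
    intro j hj _
    ext l
    rw [PowerSeries.coeff_map, map_zero]
    have hpos : 1 ≤ p * (j + l * p) := Nat.succ_le_of_lt (Nat.mul_pos hp0 (by omega))
    rw [qcB, PowerSeries.coeff_mk, map_neg, map_mul, hφ _ hpos, zero_mul, neg_zero]
  have h3 : PowerSeries.map φ (qcB p R a ha hp 0) =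
      PowerSeries.C (-(φ ⟨a 0, ha 0⟩ * φ ⟨(p : ℂ)⁻¹, hp⟩)) := by
    ext l
    rw [PowerSeries.coeff_map, PowerSeries.coeff_C]
    rcases Nat.eq_zero_or_pos l with rfl | hl
    · rw [if_pos rfl, qcB, PowerSeries.coeff_mk, map_neg, map_mul]
      simp only [zero_mul, add_zero, mul_zero]
    · rw [if_neg hl.ne']
      have hpos : 1 ≤ p * (0 + l * p) :=
        Nat.succ_le_of_lt (Nat.mul_pos hp0 (by rw [zero_add]; exact Nat.mul_pos hl hp0))
      rw [qcB, PowerSeries.coeff_mk, map_neg, map_mul, hφ _ hpos, zero_mul, neg_zero]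
  rw [qcModelTwo, map_qcEsymmModel_of_eq_zero (PowerSeries.map φ) _ _ h2 hi, h1, h3,
    qc_map_multiset_esymm (PowerSeries.C : B →+* PowerSeries B), Multiset.map_cons,
    Multiset.map_replicate]

/-- **one-call consumer form (weight `2`)**: if the `q`-expansion of `G` has coefficients in `R ∋ 1/p`
and is constant modulo `ker φ`, then the level-one form `normForm G i` has coefficients in `R` and
is, modulo `ker φ`, the constant `esymm_i (c, -c/p, …, -c/p)`, `c = φ (a_0)`. -/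
theorem exists_mem_and_map_coeff_normForm_two (G : ModularForm (Gamma0 p) 2) (R : Subring ℂ)
    (hp : (p : ℂ)⁻¹ ∈ R) (ha : ∀ n, (qExpansion (1 : ℝ) G).coeff n ∈ R) {B : Type*} [CommRing B]
    (φ : R →+* B) (hφ : ∀ n, 1 ≤ n → φ ⟨(qExpansion (1 : ℝ) G).coeff n, ha n⟩ = 0) {i : ℕ}
    (hi : i ≤ p + 1) :
    ∃ hint : ∀ n, (qExpansion (1 : ℝ) (normForm G i)).coeff n ∈ R,
      φ ⟨_, hint 0⟩ = (φ ⟨(qExpansion (1 : ℝ) G).coeff 0, ha 0⟩ ::ₘ
        Multiset.replicate p (-(φ ⟨(qExpansion (1 : ℝ) G).coeff 0, ha 0⟩ *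
          φ ⟨(p : ℂ)⁻¹, hp⟩))).esymm i ∧
      ∀ n, 1 ≤ n → φ ⟨_, hint n⟩ = 0 := by
  refine ⟨coeff_qExpansion_normForm_two_mem G R hp ha hi, ?_⟩
  have key : ∀ n, (⟨(qExpansion (1 : ℝ) (normForm G i)).coeff n,
      coeff_qExpansion_normForm_two_mem G R hp ha hi n⟩ : R) =
      PowerSeries.coeff n (qcModelTwo G R hp ha i) := by
    intro n
    apply Subtype.ext
    simp only
    rw [← map_qcModelTwo G R hp ha hi, PowerSeries.coeff_map]
    rfl
  have h := map_qcModelTwo_of_eq_zero G R hp ha φ hφ hi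
  constructor
  · rw [key 0, ← PowerSeries.coeff_map, h, PowerSeries.coeff_C, if_pos rfl]
  · intro n hn
    rw [key n, ← PowerSeries.coeff_map, h, PowerSeries.coeff_C, if_neg (by omega)]

end Fermat.Agent.S16.Conj
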